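import Fermat.Agent.S55.Top.MainSpec
import Fermat.Agent.S55.Top.CritSpec

/-!
# S56 / TOP: Selmer groups and dual Selmer groups in the S55 Top language (sorry-free defs)

Generic: `k` a field, `D` a local system, `L v ≤ H¹(Γ_v, V)` local conditions.

* `s56Sel D ρV L`            : `{x ∈ H¹(G, V) | ∀ v, loc_v x ∈ L v}`
* `s56SelDual D P tr L`      : `{y ∈ H¹(G, W) | ∀ l ∈ ∏ L v, Σ_v ⟨l_v, loc_v y⟩_v = 0}`
-/

set_option autoImplicit false

noncomputable section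

namespace Fermat.Agent.S56

open Fermat.Agent.S55

universe u

variable {k : Type u} [Field k] {G : Type u} [Group G] {𝓛 : Levels G}
  {ι : Type} [Fintype ι] {Γ : ι → Type} [∀ v, Group (Γ v)] (D : LocSys 𝓛 ι Γ)
  {V W Z : Type u} [AddCommGroup V] [Module k V] [AddCommGroup W] [Module k W]
  [AddCommGroup Z] [Module k Z]
  {ρV : Representation k G V} {ρW : Representation k G W} {ρZ : Representation k G Z}
  {β : V →ₗ[k] W →ₗ[k] Z}

/-- the Selmer group `{x ∈ H¹(G, V) | ∀ v, loc_v x ∈ L v}` -/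
def s56Sel (ρV : Representation k G V) (L : ∀ v, Submodule k (smH1 (D.lev v) (D.rep ρV v))) :
    Submodule k (smH1 𝓛 ρV) :=
  (Submodule.pi Set.univ L).comap (locP1 D (ρ := ρV))

theorem mem_s56Sel (L : ∀ v, Submodule k (smH1 (D.lev v) (D.rep ρV v))) (x : smH1 𝓛 ρV) :
    x ∈ s56Sel D ρV L ↔ ∀ v, locP1 D (ρ := ρV) x v ∈ L v := by
  unfold s56Sel
  rw [Submodule.mem_comap, Submodule.mem_pi]
  exact ⟨fun h v => h v (Set.mem_univ v), fun h v _ => h v⟩

/-- the dual Selmer group `{y ∈ H¹(G, W) | ∀ l ∈ ∏ L v, Σ_v ⟨l_v, loc_v y⟩ = 0}` -/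
def s56SelDual (P : PairingData 𝓛 ρV ρW ρZ β) (tr : smHc3 D ρZ →ₗ[k] k)
    (L : ∀ v, Submodule k (smH1 (D.lev v) (D.rep ρV v))) : Submodule k (smH1 𝓛 ρW) where
  carrier := {y | ∀ l : ∀ v, smH1 (D.lev v) (D.rep ρV v), (∀ v, l v ∈ L v) →
    pair11 D P tr l (locP1 D (ρ := ρW) y) = 0}
  add_mem' := fun {a b} ha hb l hl => by
    rw [map_add, map_add, ha l hl, hb l hl, add_zero]
  zero_mem' := fun l _ => by rw [map_zero, map_zero]
  smul_mem' := fun c a ha l hl => by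
    rw [map_smul, map_smul, ha l hl, smul_zero]

theorem mem_s56SelDual (P : PairingData 𝓛 ρV ρW ρZ β) (tr : smHc3 D ρZ →ₗ[k] k)
    (L : ∀ v, Submodule k (smH1 (D.lev v) (D.rep ρV v))) (y : smH1 𝓛 ρW) :
    y ∈ s56SelDual D P tr L ↔ ∀ l : ∀ v, smH1 (D.lev v) (D.rep ρV v), (∀ v, l v ∈ L v) →
      pair11 D P tr l (locP1 D (ρ := ρW) y) = 0 := Iff.rfl

end Fermat.Agent.S56
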