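import Fermat.Agent.S56.Top.AdDefs
import Fermat.Agent.S56.Top.WGDefs
import Fermat.Agent.S55.Asm.TrivDefs
import Fermat.Agent.S53.ProRepSpec

/-!
# S56 / TOP: the definitions of the top-level cut (sorry-free)

Notation: `k = ResidueField 𝒪`, `M = ad⁰ρ̄ = s56Ad0Rep p ρbar : Rep (ZMod p) GQ`,
`M* = M.dualTwist (cycloChar p)`; ALL cohomology is over `ZMod p` in the S55 Top language; `k` enters
only through `Nat.card k`.  `S' = s56Primes (Smin ∪ Q)`.

* `S56LocCond`, `s56LocSub`, `s56SelQ` : local conditions as families of submodules of cocycle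
  FUNCTIONS on the local Galois groups (independent of `S'`), and the Selmer group they cut out.
* `s56CondOrd`, `s56CondFlat` : the two deformation conditions of the frozen statement.
* `S56Dict` : the statement of the cocycle dictionary (T24) for a deformation condition.
* `S56IsTW` : Taylor-Wiles primes of level `n`.
-/

set_option autoImplicit false
set_option linter.unusedVariables false
set_option linter.unusedSectionVars false

noncomputable section

namespace Fermat.Agent.S56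

open Fermat.Agent.S55 ExtCitation IsLocalRing Polynomial

/-! ## local conditions and Selmer groups -/

section LocCond

variable {k : Type} [Field k] (p : ℕ) [Fact p.Prime] [CharP k p] (ρbar : ResidualGaloisRep k)

/-- a family of local conditions: for every prime `q` a `ZMod p`-submodule of the FUNCTIONS
`Gal(ℚ̄_q/ℚ_q) → ad⁰ρ̄` (in the applications: `1`-cocycles, containing the coboundaries) -/
abbrev S56LocCond : Type :=
  ∀ q : Nat.Primes, Submodule (ZMod p) (primeLocalGaloisGroup q → S56Ad0 ρbar)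

/-- the subspace of `H¹(ℚ_v, ad⁰ρ̄)` cut out by `𝒵 v`: classes having a representative in `𝒵 v` -/
def s56LocSub (S' : Finset Nat.Primes) (𝒵 : S56LocCond p ρbar) (v : ↥S') :
    Submodule (ZMod p) (smH1 ((locSysS S').lev v) ((locSysS S').rep (s56Ad0 p ρbar) v)) :=
  ((𝒵 v.1).comap (smZ1 ((locSysS S').lev v) ((locSysS S').rep (s56Ad0 p ρbar) v)).subtype).map
    (smH1π ((locSysS S').lev v) ((locSysS S').rep (s56Ad0 p ρbar) v))

/-- the Selmer group `H¹_𝒵(G_{S'}, ad⁰ρ̄)` -/
def s56SelQ (S' : Finset Nat.Primes) (𝒵 : S56LocCond p ρbar) :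
    Submodule (ZMod p) (smH1 (levelsS S') (s56Ad0 p ρbar)) :=
  s56Sel (locSysS S') (s56Ad0 p ρbar) (s56LocSub p ρbar S' 𝒵)

end LocCond

/-! ## the S56 setting -/

section Main

variable {𝒪 : Type} [CommRing 𝒪] [IsDomain 𝒪] [IsDiscreteValuationRing 𝒪]
  [IsAdicComplete (maximalIdeal 𝒪) 𝒪] [Finite (ResidueField 𝒪)]
  (p : ℕ) [Fact p.Prime] [CharP (ResidueField 𝒪) p]
  (ρbar : ResidualGaloisRep (ResidueField 𝒪))

/-! ### the dictionary (T24) -/

/-- the two deformation conditions of the frozen statement -/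
def s56CondOrd (Smin Q : Finset ℕ) :
    ∀ ⦃A : Type⦄ [CommRing A] [IsLocalRing A] [Algebra 𝒪 A], GaloisRepAdic A → Prop :=
  fun _A _ _ _ ρ => GaloisRep.strictOrdinaryCondition 𝒪 p (Smin ∪ Q) ρ ∧
    ∀ q ∈ Smin, q.Prime → q ≠ p → ρ.IsUnipotentOnInertiaAt q

def s56CondFlat (Smin Q : Finset ℕ) :
    ∀ ⦃A : Type⦄ [CommRing A] [IsLocalRing A] [Algebra 𝒪 A], GaloisRepAdic A → Prop :=
  fun _A _ _ _ ρ => GaloisRep.flatCondition 𝒪 p (Smin ∪ Q) ρ ∧
    ∀ q ∈ Smin, q.Prime → q ≠ p → ρ.IsUnipotentOnInertiaAt q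

/-- the statement of the dictionary for a deformation condition `𝒟 Q` (depending on the auxiliary
set `Q`): there is ONE family of local conditions `𝒵` (independent of `Q`), trivial outside `Smin`,
of the right size at `p` and at `Smin \ {p}`, such that for every `Q` the tangent space of every
deformation ring of type `𝒟 Q` injects into the Selmer group of `𝒵` for `S' = Smin ∪ Q`. -/
def S56Dict (Smin : Finset ℕ)
    (𝒟 : Finset ℕ → ∀ ⦃A : Type⦄ [CommRing A] [IsLocalRing A] [Algebra 𝒪 A],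
      GaloisRepAdic A → Prop) : Prop :=
  ∃ 𝒵 : S56LocCond p ρbar,
    (∀ q : Nat.Primes, (q : ℕ) ∉ Smin → 𝒵 q = ⊤) ∧
    (∀ (S' : Finset Nat.Primes) (v : ↥S'), ((v.1 : Nat.Primes) : ℕ) = p →
      Nat.card ↥(s56LocSub p ρbar S' 𝒵 v) ≤ Nat.card (ResidueField 𝒪) *
        Nat.card ↥(smH0 ((locSysS S').rep (s56Ad0 p ρbar) v))) ∧
    (∀ (S' : Finset Nat.Primes) (v : ↥S'), ((v.1 : Nat.Primes) : ℕ) ∈ Smin →
      ((v.1 : Nat.Primes) : ℕ) ≠ p →
      Nat.card ↥(s56LocSub p ρbar S' 𝒵 v) ≤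
        Nat.card ↥(smH0 ((locSysS S').rep (s56Ad0 p ρbar) v))) ∧
    ∀ (Q : Finset ℕ) (hQ : ∀ q ∈ Q, q.Prime) (DQ : GaloisRep.DeformationRingData 𝒪 ρbar (𝒟 Q)),
      letI := Fermat.Agent.S53.dualNumberAlgebra 𝒪
      ∃ f : (DQ.R →ₐ[𝒪] DualNumber (ResidueField 𝒪)) →
          ↥(s56SelQ p ρbar (s56Primes (Smin ∪ Q)) 𝒵),
        Function.Injective f

/-! ### Taylor-Wiles primes -/

/-- `q` is a Taylor-Wiles prime of level `n` for `ρ̄` (the three conditions of the frozen statement) -/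
def S56IsTW (S : Finset ℕ) (n q : ℕ) : Prop :=
  (q.Prime ∧ q ∉ S ∧ p ^ (n + 1) ∣ q - 1) ∧
  ∀ P : ValuationSubring (AlgebraicClosure ℚ), P.LiesOverPrime q →
    ∀ φ : AlgebraicClosure ℚ ≃ₐ[ℚ] AlgebraicClosure ℚ, P.IsFrobeniusAt φ q →
      ∃ α β : ResidueField 𝒪, α ≠ β ∧ LinearMap.charpoly (ρbar.ρ φ) = (X - C α) * (X - C β)

end Main

end Fermat.Agent.S56
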