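import Fermat.Agent.S55.LG.QbarMackey
import Fermat.Agent.S55.LG.QbarInertia
import Fermat.Agent.S55.SB.Unram
import Fermat.Agent.S55.Bridge.Pair

/-!
# S56 / TOP, leaf INF (row 351): `s56_isLC_of_locally_trivial`

A `1`-cocycle `y` of `GQ`, smooth for `S₂`, with coefficients smooth for `S₁ ⊆ S₂`, whose restriction
to the local Galois group at every `q ∈ S₂ \ S₁` is a coboundary, is smooth for `S₁`.

Route.  `H := {u | ∀ g, y (g u g⁻¹) = 0}` is a NORMAL subgroup of `GQ` containing a normal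
`S₂`-level, hence `H = E.fixingSubgroup` with `E` unramified outside `S₂` (`sb_isOpen_iff`).  For
`q ∈ S₂ \ S₁` all inertia groups above `q` lie in `H`: by normality (`mink_inertia_le_of_conj`) it is
enough to treat `padicPlace q`; an element `σ` of its inertia group is `h * r_q(γ)` with `h` fixing
the number field `K' = E₂ ⊔ E_m` (`E₂` a level field of `y`, `E_m` of the vector `m` of `hloc`):
`s56inf_inertia_decomp`, from helper2's double coset description of places `lgqm_lgPlace_eq_iff`;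
then `y σ = y h + h (r_q(γ) m - m) = 0` because `σ`, `h` fix `m`; conjugates by the cocycle identity.
So `E` is unramified outside `S₁` and `y` is constant on the cosets of `E.fixingSubgroup`.
-/

set_option autoImplicit false
set_option linter.unusedVariables false
set_option linter.unusedSectionVars false
set_option linter.style.haveILetI false

noncomputable section

namespace Fermat.Agent.S56

open Fermat.Agent.S55 ExtCitation NumberField

section Decomp

variable (q : ℕ) [Fact q.Prime]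

/-- an inertial automorphism preserves the maximal ideal of the valuation ring -/
theorem s56inf_mem_nonunits_iff {A : ValuationSubring (AlgebraicClosure ℚ)} {σ : GQ}
    (hσ : Fermat.Agent.S05.IsInertial A σ) (x : AlgebraicClosure ℚ) :
    σ x ∈ A.nonunits ↔ x ∈ A.nonunits := by
  rw [Fermat.Agent.S13.mink_mem_nonunits_iff, Fermat.Agent.S13.mink_mem_nonunits_iff, hσ.mem_iff,
    ← map_inv₀, hσ.mem_iff]
  constructor
  · rintro ⟨h1, h2⟩
    refine ⟨h1, h2.imp_left fun h => ?_⟩
    exact (map_eq_zero_iff σ σ.injective).mp h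
  · rintro ⟨h1, h2⟩
    exact ⟨h1, h2.imp_left fun h => by rw [h, map_zero]⟩

/-- DECOMPOSITION at finite level: an element of the inertia group of `padicPlace q` is, modulo the
fixing subgroup of any number field `K' ⊆ ℚ̄`, in the image of the local Galois group. -/
theorem s56inf_inertia_decomp (K' : IntermediateField ℚ (AlgebraicClosure ℚ)) [NumberField K']
    (σ : GQ) (hσ : σ ∈ (padicPlace q).inertiaSubgroupIn ℚ) :
    ∃ h ∈ K'.fixingSubgroup, ∃ γ : lbGal q, σ = h * localGaloisToGlobal q γ := by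
  have hin : Fermat.Agent.S05.IsInertial (padicPlace q) σ⁻¹ :=
    Fermat.Agent.S05.isInertial_of_mem_inertiaSubgroupIn _ _ (inv_mem hσ)
  have hpl : lgPlace q (lgqmEmb q K' 1) = lgPlace q (lgqmEmb q K' σ) := by
    apply IsDedekindDomain.HeightOneSpectrum.ext
    rw [lgPlace_asIdeal, lgPlace_asIdeal]
    ext x
    rw [mem_lgIdeal_iff, mem_lgIdeal_iff, lgqmEmb_apply, lgqmEmb_apply, inv_one,
      ← lgqi_mem_nonunits_padicPlace_iff, ← lgqi_mem_nonunits_padicPlace_iff]
    exact (s56inf_mem_nonunits_iff hin _).symm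
  obtain ⟨h, hh, γ, hγ⟩ := (lgqm_lgPlace_eq_iff q K' 1 σ).mp hpl
  exact ⟨h, hh, γ, by rw [hγ, mul_one]⟩

end Decomp

section Main

variable {k : Type*} [CommRing k] {V : Type*} [AddCommGroup V] [Module k V]

/-- the cocycle identity -/
theorem s56inf_cocycle (ρ : Representation k GQ V) {y : GQ → V} (hy : dd1 ρ y = 0) (g h : GQ) :
    y (g * h) = ρ g (y h) + y g := by
  have := congrFun hy (g, h)
  simp only [dd1, LinearMap.coe_mk, AddHom.coe_mk, Pi.zero_apply] at this
  rw [sub_add_eq_add_sub, sub_eq_zero] at this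
  exact this.symm

theorem s56inf_cocycle_one (ρ : Representation k GQ V) {y : GQ → V} (hy : dd1 ρ y = 0) :
    y 1 = 0 := by
  have := s56inf_cocycle ρ hy 1 1
  rw [mul_one, map_one, Module.End.one_apply] at this
  exact left_eq_add.mp this |>.symm ▸ rfl

/-- the normal subgroup `{u | ∀ g, y (g u g⁻¹) = 0}` attached to a cocycle -/
def s56infSub (ρ : Representation k GQ V) {y : GQ → V} (hy : dd1 ρ y = 0) : Subgroup GQ where
  carrier := {u | ∀ g : GQ, y (g * u * g⁻¹) = 0}
  one_mem' := fun g => by rw [mul_one, mul_inv_cancel, s56inf_cocycle_one ρ hy]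
  mul_mem' := by
    intro u v hu hv g
    have : g * (u * v) * g⁻¹ = (g * u * g⁻¹) * (g * v * g⁻¹) := by group
    rw [this, s56inf_cocycle ρ hy, hu g, hv g, map_zero, add_zero]
  inv_mem' := by
    intro u hu g
    have h1 : (g * u * g⁻¹) * (g * u⁻¹ * g⁻¹) = 1 := by group
    have h2 := s56inf_cocycle ρ hy (g * u * g⁻¹) (g * u⁻¹ * g⁻¹)
    rw [h1, s56inf_cocycle_one ρ hy, hu g, add_zero] at h2
    have h3 := congrArg (ρ (g * u * g⁻¹)⁻¹) h2
    rw [map_zero, ← Module.End.mul_apply, ← map_mul, inv_mul_cancel, map_one,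
      Module.End.one_apply] at h3
    exact h3.symm

theorem s56infSub_normal (ρ : Representation k GQ V) {y : GQ → V} (hy : dd1 ρ y = 0) :
    (s56infSub ρ hy).Normal := by
  refine ⟨fun u hu a g => ?_⟩
  have : g * (a * u * a⁻¹) * g⁻¹ = (g * a) * u * (g * a)⁻¹ := by group
  rw [this]
  exact hu (g * a)

/-- **leaf INF**, general coefficients. -/
theorem s56inf_main (ρ : Representation k GQ V) (S₁ S₂ : Finset Nat.Primes) (hS : S₁ ⊆ S₂)
    (hM : IsSmoothRep (levelsS S₁) ρ)
    (y : GQ → V) (hy : y ∈ smZ1 (levelsS S₂) ρ)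
    (hloc : ∀ q ∈ S₂, q ∉ S₁ → ∃ m : V, ∀ γ : primeLocalGaloisGroup q,
      y (primeLocalToGlobal q γ) = ρ (primeLocalToGlobal q γ) m - m) :
    y ∈ smZ1 (levelsS S₁) ρ := by
  obtain ⟨hcoc, U₂, ⟨E₂, hE₂, rfl⟩, hlc⟩ := hy
  have hcoc' : dd1 ρ y = 0 := hcoc
  have hc := s56inf_cocycle ρ hcoc'
  have h1 := s56inf_cocycle_one ρ hcoc'
  -- `y` vanishes on the level
  have hy0 : ∀ u ∈ E₂.fixingSubgroup, y u = 0 := fun u hu => by
    have := hlc 1 u hu
    rwa [one_mul, h1] at this
  -- a normal level inside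
  obtain ⟨W, hW, hWn, hWle⟩ := (levelsS S₂).exists_normal_le _ ⟨E₂, hE₂, rfl⟩
  have hWH : W ≤ s56infSub ρ hcoc' := fun u hu g => hy0 _ (hWle (hWn.conj_mem u hu g))
  obtain ⟨E, hE, hHE⟩ := (sb_isOpen_iff S₂ (s56infSub ρ hcoc')).1 ⟨W, hW, hWH⟩
  haveI := s56infSub_normal ρ hcoc'
  -- `E` is unramified outside `S₁`
  have hE1 : E.IsUnramifiedOutside S₁ := by
    refine ⟨hE.1, fun q hq A hA => ?_⟩
    by_cases hq2 : q ∈ S₂
    · haveI : Fact ((q : ℕ)).Prime := ⟨q.2⟩
      rw [← hHE]
      refine Fermat.Agent.S13.mink_inertia_le_of_conj (q : ℕ) q.2 (s56infSub ρ hcoc')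
        (padicPlace (q : ℕ)) A (padicPlace_liesOverPrime (q : ℕ)) hA ?_
      intro σ hσ g
      obtain ⟨m, hm⟩ := hloc q hq2 hq
      obtain ⟨_, ⟨Em, hEm, rfl⟩, hUm⟩ := hM m
      -- inertia at `q` fixes every vector (coefficients smooth for `S₁ ∌ q`)
      have hfix : ∀ v : V, ρ σ v = v := by
        intro v
        obtain ⟨_, ⟨Ev, hEv, rfl⟩, hUv⟩ := hM v
        exact hUv σ (hEv.2 q hq (padicPlace (q : ℕ)) (padicPlace_liesOverPrime (q : ℕ)) hσ)
      have hK : (E₂ ⊔ Em).IsUnramifiedOutside S₂ := hE₂.sup (hEm.mono hS)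
      haveI : NumberField ↥(E₂ ⊔ Em) := sb_numberField hK.1
      obtain ⟨h, hh, γ, rfl⟩ := s56inf_inertia_decomp (q : ℕ) (E₂ ⊔ Em) σ hσ
      rw [IntermediateField.fixingSubgroup_sup] at hh
      -- `r_q(γ)` fixes `m`
      have hγm : ρ (localGaloisToGlobal (q : ℕ) γ) m = m := by
        have h2 := hfix m
        rw [map_mul, Module.End.mul_apply] at h2
        have h3 := congrArg (ρ h⁻¹) h2
        rw [← Module.End.mul_apply, ← map_mul, inv_mul_cancel, map_one, Module.End.one_apply,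
          hUm h⁻¹ (inv_mem hh.2)] at h3
        exact h3
      have hyγ : y (localGaloisToGlobal (q : ℕ) γ) = 0 := by
        have := hm γ
        change y (localGaloisToGlobal (q : ℕ) γ) = ρ (localGaloisToGlobal (q : ℕ) γ) m - m at this
        rw [this, hγm, sub_self]
      have hyσ : y (h * localGaloisToGlobal (q : ℕ) γ) = 0 := by
        rw [hc, hyγ, map_zero, zero_add, hy0 h hh.1]
      -- conjugates
      rw [hc, hc, hyσ, map_zero, zero_add, map_mul, Module.End.mul_apply, hfix, ← hc,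
        mul_inv_cancel, h1]
    · exact hE.2 q hq2 A hA
  refine ⟨hcoc, E.fixingSubgroup, ⟨E, hE1, rfl⟩, fun g s hs => ?_⟩
  rw [← hHE] at hs
  have hs0 : y s = 0 := by
    have := hs 1
    rwa [one_mul, inv_one, mul_one] at this
  rw [hc, hs0, map_zero, zero_add]

end Main

section Frozen

variable {p : ℕ} [Fact p.Prime]

/-- **leaf INF.** A `1`-cocycle smooth for `S₂` with coefficients smooth for `S₁ ⊆ S₂` whose
restriction to the local Galois group at every `q ∈ S₂ \ S₁` is a coboundary is smooth for `S₁`. -/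
theorem s56_isLC_of_locally_trivial (S₁ S₂ : Finset Nat.Primes) (hS : S₁ ⊆ S₂)
    (M : Rep (ZMod p) GQ) (hM : IsSmoothRep (levelsS S₁) M.ρ)
    (y : GQ → M) (hy : y ∈ smZ1 (levelsS S₂) M.ρ)
    (hloc : ∀ q ∈ S₂, q ∉ S₁ → ∃ m : M, ∀ γ : primeLocalGaloisGroup q,
      y (primeLocalToGlobal q γ) = M.ρ (primeLocalToGlobal q γ) m - m) :
    y ∈ smZ1 (levelsS S₁) M.ρ :=
  s56inf_main M.ρ S₁ S₂ hS hM y hy hloc

end Frozen

end Fermat.Agent.S56
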