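import Fermat.Agent.S55.Bridge.Pair
import Fermat.Prelude.Def_GaloisRep_DeformationRingData
import Fermat.Prelude.Def_GaloisRep_LocalConditions
import Fermat.Prelude.Def_GaloisRep_StrictOrdinary
import Fermat.Prelude.Def_GaloisRep_Flat
import Fermat.Prelude.Def_GaloisRep_Residual

/-!
# S56 / TOP: the coefficient module `ad⁰ ρ̄` as an `𝔽_p`-representation of `G_ℚ` (sorry-free defs)

`k` a field of characteristic `p`, `ρ̄ : ResidualGaloisRep k`.

* `S56Ad0 ρbar`            : the `k`-space of trace-zero endomorphisms of `ρ̄.V`, with its `k`-module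
                             structure AND the `ZMod p`-module structure (restriction of scalars;
                             instance `s56Ad0ModuleZMod`, needs `[CharP k p]`).
* `s56AdConj ρbar g`       : conjugation `f ↦ ρ̄(g) f ρ̄(g)⁻¹` on `S56Ad0 ρbar` (`k`-linear).
* `s56Ad0K ρbar`           : `Representation k GQ (S56Ad0 ρbar)`.
* `s56Ad0 p ρbar`          : `Representation (ZMod p) GQ (S56Ad0 ρbar)` (THE coefficient system of the
                             Selmer groups: all of S55 applies to it).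
* `s56Ad0Rep p ρbar`       : the bundled `Rep (ZMod p) GQ`; `(s56Ad0Rep p ρbar).dualTwist (cycloChar p)`
                             is `ad⁰ρ̄(1)` (the `𝔽_p`-dual, twisted).
* `s56Primes T`            : a `Finset ℕ` of primes as a `Finset Nat.Primes`.
-/

set_option autoImplicit false

noncomputable section

namespace Fermat.Agent.S56

open Fermat.Agent.S55 ExtCitation

variable {k : Type} [Field k]

/-- trace-zero endomorphisms of `ρ̄.V` -/
def S56Ad0 (ρbar : ResidualGaloisRep k) : Type :=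
  ↥(LinearMap.ker (LinearMap.trace k ρbar.V))

instance s56Ad0AddCommGroup (ρbar : ResidualGaloisRep k) : AddCommGroup (S56Ad0 ρbar) :=
  inferInstanceAs (AddCommGroup ↥(LinearMap.ker (LinearMap.trace k ρbar.V)))

instance s56Ad0Module (ρbar : ResidualGaloisRep k) : Module k (S56Ad0 ρbar) :=
  inferInstanceAs (Module k ↥(LinearMap.ker (LinearMap.trace k ρbar.V)))

instance s56Ad0Finite (ρbar : ResidualGaloisRep k) : Module.Finite k (S56Ad0 ρbar) :=
  inferInstanceAs (Module.Finite k ↥(LinearMap.ker (LinearMap.trace k ρbar.V)))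

/-- the underlying endomorphism -/
def S56Ad0.val {ρbar : ResidualGaloisRep k} (f : S56Ad0 ρbar) : Module.End k ρbar.V :=
  (f : ↥(LinearMap.ker (LinearMap.trace k ρbar.V))).1

theorem S56Ad0.trace_val {ρbar : ResidualGaloisRep k} (f : S56Ad0 ρbar) :
    LinearMap.trace k ρbar.V f.val = 0 :=
  (f : ↥(LinearMap.ker (LinearMap.trace k ρbar.V))).2

theorem S56Ad0.ext {ρbar : ResidualGaloisRep k} {f g : S56Ad0 ρbar} (h : f.val = g.val) : f = g :=
  Subtype.ext h

/-- a trace-zero endomorphism as an element of `S56Ad0` -/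
def S56Ad0.mk {ρbar : ResidualGaloisRep k} (f : Module.End k ρbar.V)
    (hf : LinearMap.trace k ρbar.V f = 0) : S56Ad0 ρbar :=
  ⟨f, hf⟩

@[simp] theorem S56Ad0.val_mk {ρbar : ResidualGaloisRep k} (f : Module.End k ρbar.V)
    (hf : LinearMap.trace k ρbar.V f = 0) : (S56Ad0.mk f hf).val = f := rfl

@[simp] theorem S56Ad0.val_add {ρbar : ResidualGaloisRep k} (f g : S56Ad0 ρbar) :
    (f + g).val = f.val + g.val := rfl

@[simp] theorem S56Ad0.val_smul {ρbar : ResidualGaloisRep k} (c : k) (f : S56Ad0 ρbar) :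
    (c • f).val = c • f.val := rfl

@[simp] theorem S56Ad0.val_zero {ρbar : ResidualGaloisRep k} : (0 : S56Ad0 ρbar).val = 0 := rfl

/-- `ρ̄(g) ρ̄(g⁻¹) = 1` -/
theorem s56_rho_mul_inv (ρbar : ResidualGaloisRep k) (g : GQ) :
    ρbar.ρ g * ρbar.ρ g⁻¹ = 1 := by
  rw [← map_mul, mul_inv_cancel, map_one]

theorem s56_rho_inv_mul (ρbar : ResidualGaloisRep k) (g : GQ) :
    ρbar.ρ g⁻¹ * ρbar.ρ g = 1 := by
  rw [← map_mul, inv_mul_cancel, map_one]

/-- conjugation by `ρ̄(g)` on trace-zero endomorphisms -/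
def s56AdConj (ρbar : ResidualGaloisRep k) (g : GQ) : S56Ad0 ρbar →ₗ[k] S56Ad0 ρbar where
  toFun f := S56Ad0.mk (ρbar.ρ g * f.val * ρbar.ρ g⁻¹) (by
    rw [LinearMap.trace_mul_comm, ← mul_assoc, s56_rho_inv_mul, one_mul, f.trace_val])
  map_add' f g' := S56Ad0.ext (by
    simp only [S56Ad0.val_mk, S56Ad0.val_add, mul_add, add_mul])
  map_smul' c f := S56Ad0.ext (by
    simp only [S56Ad0.val_mk, S56Ad0.val_smul, RingHom.id_apply, mul_smul_comm, smul_mul_assoc])

@[simp] theorem s56AdConj_val (ρbar : ResidualGaloisRep k) (g : GQ) (f : S56Ad0 ρbar) :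
    (s56AdConj ρbar g f).val = ρbar.ρ g * f.val * ρbar.ρ g⁻¹ := rfl

/-- `ad⁰ ρ̄` as a `k`-representation -/
def s56Ad0K (ρbar : ResidualGaloisRep k) : Representation k GQ (S56Ad0 ρbar) where
  toFun := s56AdConj ρbar
  map_one' := LinearMap.ext fun f => S56Ad0.ext (by
    rw [s56AdConj_val, inv_one, map_one, one_mul, mul_one]
    rfl)
  map_mul' g h := LinearMap.ext fun f => S56Ad0.ext (by
    rw [Module.End.mul_apply, s56AdConj_val, s56AdConj_val, s56AdConj_val, mul_inv_rev, map_mul,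
      map_mul]
    simp only [mul_assoc])

@[simp] theorem s56Ad0K_apply (ρbar : ResidualGaloisRep k) (g : GQ) (f : S56Ad0 ρbar) :
    (s56Ad0K ρbar g f).val = ρbar.ρ g * f.val * ρbar.ρ g⁻¹ := rfl

section ZModStructure

variable (p : ℕ) [CharP k p]

/-- restriction of scalars `ZMod p → k` on `S56Ad0 ρbar` -/
instance s56Ad0ModuleZMod (ρbar : ResidualGaloisRep k) : Module (ZMod p) (S56Ad0 ρbar) :=
  Module.compHom (S56Ad0 ρbar) (ZMod.castHom (dvd_refl p) k)

theorem s56_zmod_smul_def (ρbar : ResidualGaloisRep k) (c : ZMod p) (f : S56Ad0 ρbar) :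
    c • f = (ZMod.castHom (dvd_refl p) k c) • f := rfl

instance s56Ad0IsScalarTower (ρbar : ResidualGaloisRep k) :
    letI : Algebra (ZMod p) k := (ZMod.castHom (dvd_refl p) k).toAlgebra
    IsScalarTower (ZMod p) k (S56Ad0 ρbar) :=
  letI : Algebra (ZMod p) k := (ZMod.castHom (dvd_refl p) k).toAlgebra
  ⟨fun c x f => by
    rw [s56_zmod_smul_def, Algebra.smul_def, mul_smul]
    rfl⟩

/-- `ad⁰ ρ̄` as an `𝔽_p`-representation: THE coefficient system of the Selmer groups -/
def s56Ad0 (ρbar : ResidualGaloisRep k) : Representation (ZMod p) GQ (S56Ad0 ρbar) where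
  toFun g :=
    { toFun := s56AdConj ρbar g
      map_add' := fun f g' => map_add _ f g'
      map_smul' := fun c f => by
        rw [s56_zmod_smul_def, map_smul]
        rfl }
  map_one' := LinearMap.ext fun f => by
    have := congrArg (fun φ : S56Ad0 ρbar →ₗ[k] S56Ad0 ρbar => φ f) (s56Ad0K ρbar).map_one
    exact this
  map_mul' g h := LinearMap.ext fun f => by
    have := congrArg (fun φ : S56Ad0 ρbar →ₗ[k] S56Ad0 ρbar => φ f) ((s56Ad0K ρbar).map_mul g h)
    exact this

@[simp] theorem s56Ad0_apply (ρbar : ResidualGaloisRep k) (g : GQ) (f : S56Ad0 ρbar) :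
    (s56Ad0 p ρbar g f).val = ρbar.ρ g * f.val * ρbar.ρ g⁻¹ := rfl

/-- the bundled `𝔽_p`-representation `ad⁰ ρ̄` -/
def s56Ad0Rep (ρbar : ResidualGaloisRep k) : Rep (ZMod p) GQ := Rep.of (s56Ad0 p ρbar)

instance s56Ad0FiniteType [Finite k] (ρbar : ResidualGaloisRep k) : Finite (S56Ad0 ρbar) :=
  Module.finite_of_finite k

instance s56Ad0FiniteZMod [Fact p.Prime] [Finite k] (ρbar : ResidualGaloisRep k) :
    FiniteDimensional (ZMod p) (S56Ad0 ρbar) :=
  Module.Finite.of_finite

instance s56Ad0RepFinite [Fact p.Prime] [Finite k] (ρbar : ResidualGaloisRep k) :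
    FiniteDimensional (ZMod p) (s56Ad0Rep p ρbar) :=
  s56Ad0FiniteZMod (k := k) p ρbar

end ZModStructure

/-! ### sets of primes -/

/-- a `Finset ℕ` of primes as a `Finset Nat.Primes` -/
def s56Primes (T : Finset ℕ) : Finset Nat.Primes :=
  (T.filter Nat.Prime).attach.map
    ⟨fun q => (⟨q.1, (Finset.mem_filter.1 q.2).2⟩ : Nat.Primes), fun a b h => by
      apply Subtype.ext
      exact congrArg (fun x : Nat.Primes => (x : ℕ)) h⟩

theorem mem_s56Primes (T : Finset ℕ) (q : Nat.Primes) : q ∈ s56Primes T ↔ (q : ℕ) ∈ T := by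
  unfold s56Primes
  rw [Finset.mem_map]
  constructor
  · rintro ⟨a, -, rfl⟩
    exact (Finset.mem_filter.1 a.2).1
  · intro h
    exact ⟨⟨(q : ℕ), Finset.mem_filter.2 ⟨h, q.2⟩⟩, Finset.mem_attach _ _, rfl⟩

end Fermat.Agent.S56
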