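/-
S56 / TOP, leaf BASE (row 349, helper17): `s56_core_base` VERBATIM from `S56/Top/Spec.lean`
(origin/helper14 374fd1a) = the S55 duality package for ALL finite smooth `M`, with the explicit
local traces `trLoc = asmInvQ` and left non-degeneracy of `pair02`.

Pure re-assembly of S55 internals: `asm_reciprocity` (`S55/Asm/Rec.lean`) + `exists_tr_of_reciprocity`
give `tr` with `tr ∘ ∂ = asmInvQ`; `asm_hlam` + `lb_h3_locSysS` + `hN_of_local_h3` give `hN`;
`asm_critTriv` + `coreCrit_of_critTriv` + `dualityPkg_base_of_criterion` give the base package;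
`dualityPkg_of_base` the package for `(M, M*)` and `(M*, M)`; `pair02_nondeg_left_of_cd2` +
`smH3_subsingleton_of_base` the last clause.  Helper names are prefixed `s56base_`.
-/
import Fermat.Agent.S55.CoreSpec
import Fermat.Agent.S55.Asm.TrivDefs
import Fermat.Agent.S55.Asm.Rec

set_option autoImplicit false
set_option linter.unusedVariables false
set_option linter.unusedSectionVars false

noncomputable section

namespace Fermat.Agent.S56

open Fermat.Agent.S55 ExtCitation IsLocalRing Polynomial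

section Base

variable {p : ℕ} [Fact p.Prime]

set_option maxSynthPendingDepth 3 in
/-- the trace functional with `tr ∘ ∂ = asmInvQ`, together with the whole S55 base package -/
theorem s56base_exists_tr (hp2 : p ≠ 2) (S : Finset Nat.Primes) (hpS : pPrime p ∈ S) :
    ∃ tr : smHc3 (locSysS S) (chiRep (cycloChar p)) →ₗ[ZMod p] ZMod p,
      (∀ b, trLoc (locSysS S) tr b = asmInvQ p S b) ∧
      (∀ v : ↥S, ∃ z : ∀ v, smH2 ((locSysS S).lev v) ((locSysS S).rep (chiRep (cycloChar p)) v),
        (∀ v', v' ≠ v → z v' = 0) ∧ trLoc (locSysS S) tr z ≠ 0) ∧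
      ∀ H : Subgroup GQ, (levelsS S).IsOpen H → H ≤ (cycloChar p).ker →
        ∀ P : PairingData (levelsS S) (indRep H (trivRep (k := ZMod p) H))
          (indRep H (trivRep (k := ZMod p) H)) (chiRep (cycloChar p))
          (basePairing (cycloChar p) H),
        DualityPkg (locSysS S) P tr := by
  have hχ := cycloChar_smooth (p := p) S hpS
  obtain ⟨tr, htr⟩ := exists_tr_of_reciprocity (locSysS S)
    (dev_chiRep_isSmooth (levelsS S) (cycloChar p) hχ) (asmInvQ p S)
    (asm_reciprocity hp2 S hpS)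
  have hlam := asm_hlam S tr htr
  have hN := hN_of_local_h3 (locSysS S) (cycloChar p) p hχ tr (lb_h3_locSysS S) hlam
  have hT : ∀ H : Subgroup GQ, (levelsS S).IsOpen H → H ≤ (cycloChar p).ker →
      ∃ T : ↥S → Finset GQ, IsDoubleCosetReps (locSysS S) H T ∧
        ∃ inv, CritTriv (locSysMackey (locSysS S) H T) (trivRep (k := ZMod p) H) inv := by
    intro H hH hHχ
    obtain ⟨T, hT⟩ := exists_isDoubleCosetReps (locSysS S) H hH
    exact ⟨T, hT, asmInv p S H T, asm_critTriv hp2 S hpS H hH hHχ T hT⟩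
  have : Nonempty ↥S := ⟨⟨pPrime p, hpS⟩⟩
  have hC := coreCrit_of_critTriv (locSysS S) (cycloChar p) hχ tr hT hN
  exact ⟨tr, htr, hlam, dualityPkg_base_of_criterion (locSysS S) (cycloChar p) hχ tr hC⟩

set_option maxSynthPendingDepth 3 in
/-- **leaf BASE.** (from S55: `asm_core_triv`/`sb_exists_tr` + `core_crit` + `dualityPkg_of_base` +
`pair02_nondeg_left_of_cd2`; the only new point is that `trLoc = asmInvQ` is exposed) -/
theorem s56_core_base (hp2 : p ≠ 2) (S : Finset Nat.Primes) (hpS : pPrime p ∈ S) :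
    ∃ tr : smHc3 (locSysS S) (chiRep (cycloChar p)) →ₗ[ZMod p] ZMod p,
      (∀ b, trLoc (locSysS S) tr b = asmInvQ p S b) ∧
      ∀ (M : Rep (ZMod p) GQ) [FiniteDimensional (ZMod p) M]
        (hM : IsSmoothRep (levelsS S) M.ρ),
        DualityPkg (locSysS S) (perfPair_frozen S hpS M hM).pd tr ∧
        DualityPkg (locSysS S) (perfPair_frozen_flip S hpS M hM).pd tr ∧
        ∀ b : ∀ v, ↥(smH0 ((locSysS S).rep M.ρ v)),
          (∀ c, pair02 (locSysS S) (perfPair_frozen S hpS M hM).pd tr b c = 0) → b = 0 := by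
  have hχ := cycloChar_smooth (p := p) S hpS
  obtain ⟨tr, htr, hlam, hbase⟩ := s56base_exists_tr hp2 S hpS
  refine ⟨tr, htr, fun M _ hM => ⟨?_, ?_, ?_⟩⟩
  · exact dualityPkg_of_base (locSysS S) (cycloChar p) p hχ tr hbase _ _ _
      (perfPair_frozen S hpS M hM)
  · exact dualityPkg_of_base (locSysS S) (cycloChar p) p hχ tr hbase _ _ _
      (perfPair_frozen_flip S hpS M hM)
  · intro b hb
    refine pair02_nondeg_left_of_cd2 (locSysS S) (cycloChar p) tr ?_ hlam _ _ _
      (perfPair_frozen S hpS M hM) b hb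
    intro v N _ _ _ ρN hN x
    have hχv : ∃ U, ((locSysS S).lev v).IsLevel U ∧
        U ≤ ((cycloChar p).comp ((locSysS S).r v)).ker := by
      obtain ⟨U, hU, hle⟩ := hχ
      obtain ⟨W, hW, hWU⟩ := (locSysS S).cont v U hU
      exact ⟨W, hW, fun γ hγ => hle (hWU hγ)⟩
    exact smH3_subsingleton_of_base ((locSysS S).lev v) ((cycloChar p).comp ((locSysS S).r v)) p
      hχv (lb_h3_locSysS S v) ρN hN x

end Base

end Fermat.Agent.S56
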