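import Fermat.Agent.S56.Top.AdDefs
import Fermat.Agent.S55.SB.Galois
import Fermat.Agent.S55.SB.Root
import Fermat.Prelude.Def_GaloisRep_ComplexConjugation

/-!
# S56 / TOP, leaf H0 (row 353)

* `s56_ad_isSmooth` : `ad⁰ρ̄` is smooth for `levelsS S'` when `ρ̄` is unramified outside `S'`.
* `s56h0_schur`     : SCHUR (relative to a subgroup `G'`): a trace-zero endomorphism commuting with
                      `ρ̄(σ)`, `σ ∈ G'`, vanishes if `ρ̄|G'` is irreducible over `k̄` and `2 ≠ 0`.
* `s56_ad_h0`       : `H⁰(ℚ, ad⁰ρ̄) = 0`.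
* `s56_adDual_conj` : oddness count `#M* = #k · #(M*)^c` for `M* = ad⁰ρ̄(1)` (`χ(c) = det ρ̄(c) = -1`).
* `s56_adDual_h0`   : `H⁰(ℚ, ad⁰ρ̄(1)) = 0` (trace form `M* ≅ M ⊗ χ`, twisted Schur, `hTW` on `ker χ`).
-/

set_option autoImplicit false
set_option linter.unusedVariables false
set_option linter.unusedSectionVars false
set_option linter.style.haveILetI false

noncomputable section

namespace Fermat.Agent.S56

open Fermat.Agent.S55 ExtCitation IsLocalRing Polynomial
open scoped TensorProduct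

section Schur

variable {k : Type} [Field k]

/-- SCHUR relative to a subgroup: a trace-zero endomorphism of `ρ̄.V` commuting with `ρ̄(σ)` for all
`σ ∈ G'` is zero, provided `ρ̄|G'` is irreducible after base change to `k̄` and `2 ≠ 0` in `k`. -/
theorem s56h0_schur (ρbar : ResidualGaloisRep k) (G' : Subgroup GQ)
    (hirr : ∀ W : Submodule (AlgebraicClosure k) (ρbar.baseChange (AlgebraicClosure k)).V,
      (∀ σ ∈ G', ∀ x ∈ W, (ρbar.baseChange (AlgebraicClosure k)).ρ σ x ∈ W) → W = ⊥ ∨ W = ⊤)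
    (h2 : (2 : k) ≠ 0) (f : Module.End k ρbar.V)
    (hf : ∀ σ ∈ G', f * ρbar.ρ σ = ρbar.ρ σ * f)
    (htr : LinearMap.trace k ρbar.V f = 0) : f = 0 := by
  classical
  set K := AlgebraicClosure k with hK
  set ρ' := ρbar.baseChange K with hρ'
  set f' : Module.End K ρ'.V := f.baseChange K with hf'
  have hfin : Module.finrank K ρ'.V = 2 := ρ'.finrank_eq
  haveI : FiniteDimensional K ρ'.V := Module.finite_of_finrank_eq_succ hfin
  haveI : Nontrivial ρ'.V := Module.nontrivial_of_finrank_pos (R := K) (by rw [hfin]; norm_num)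
  obtain ⟨c, hc⟩ := Module.End.exists_eigenvalue f'
  -- the eigenspace is stable
  have hstab : ∀ σ ∈ G', ∀ x ∈ f'.eigenspace c, ρ'.ρ σ x ∈ f'.eigenspace c := by
    intro σ hσ x hx
    rw [Module.End.mem_eigenspace_iff] at hx ⊢
    have hcomm : f' * ρ'.ρ σ = ρ'.ρ σ * f' := by
      show LinearMap.baseChange K f * LinearMap.baseChange K (ρbar.ρ σ) =
        LinearMap.baseChange K (ρbar.ρ σ) * LinearMap.baseChange K f
      rw [← LinearMap.baseChange_mul, ← LinearMap.baseChange_mul, hf σ hσ]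
    have := congrArg (fun φ : Module.End K ρ'.V => φ x) hcomm
    simp only [Module.End.mul_apply] at this
    rw [this, hx, map_smul]
  have htop : f'.eigenspace c = ⊤ := by
    rcases hirr _ hstab with h | h
    · exact absurd h hc
    · exact h
  have hall : ∀ x : ρ'.V, f' x = c • x := fun x =>
    Module.End.mem_eigenspace_iff.mp (htop ▸ Submodule.mem_top)
  have hfc : f' = c • (1 : Module.End K ρ'.V) := LinearMap.ext fun x => by
    rw [hall]
    rfl
  -- the trace
  have htr' : LinearMap.trace K ρ'.V f' = 0 := by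
    have := LinearMap.trace_baseChange f K
    rw [htr, map_zero] at this
    exact this
  rw [hfc, map_smul, LinearMap.trace_one, hfin, smul_eq_mul] at htr'
  have h2K : ((2 : ℕ) : K) ≠ 0 := by
    have : ((2 : ℕ) : K) = algebraMap k K 2 := by rw [Nat.cast_ofNat, map_ofNat]
    rw [this]
    exact (map_ne_zero_iff _ (algebraMap k K).injective).mpr h2
  have hc0 : c = 0 := (mul_eq_zero.mp htr').resolve_right h2K
  -- descend
  ext v
  have hv : f' ((1 : K) ⊗ₜ[k] v) = 0 := by rw [hall, hc0, zero_smul]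
  rw [hf', LinearMap.baseChange_tmul] at hv
  have hinj := Module.FaithfullyFlat.tensorProduct_mk_injective (A := k) (B := K) ρbar.V
  have : (TensorProduct.mk k K ρbar.V 1) (f v) = (TensorProduct.mk k K ρbar.V 1) 0 := by
    rw [map_zero]
    exact hv
  rw [LinearMap.zero_apply]
  exact hinj this

end Schur

section Two

/-- `2 ≠ 0` in a field of odd characteristic `p` -/
theorem s56h0_two_ne_zero {k : Type} [Field k] (p : ℕ) [Fact p.Prime] [CharP k p] (hp2 : p ≠ 2) :
    (2 : k) ≠ 0 := by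
  intro h
  have h' : ((2 : ℕ) : k) = 0 := by exact_mod_cast h
  rw [CharP.cast_eq_zero_iff k p 2] at h'
  exact hp2 ((Nat.prime_dvd_prime_iff_eq (Fact.out : p.Prime) Nat.prime_two).mp h')

end Two

section Conj

/-- complex conjugation inverts roots of unity -/
theorem s56h0_conj_root (μ : AlgebraicClosure ℚ) (n : ℕ) (hn : n ≠ 0) (hμ : μ ^ n = 1) :
    complexConjugation μ = μ⁻¹ := by
  apply complexEmbedding.toRingHom.injective
  show complexEmbedding (complexConjugation μ) = complexEmbedding μ⁻¹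
  rw [complexEmbedding_complexConjugation, map_inv₀]
  have hz : (complexEmbedding μ) ^ n = 1 := by rw [← map_pow, hμ, map_one]
  have hnorm : ‖complexEmbedding μ‖ = 1 := Complex.norm_eq_one_of_pow_eq_one hz hn
  exact (Complex.inv_eq_conj hnorm).symm

/-- `χ(c) = -1` -/
theorem s56h0_cycloChar_conj (p : ℕ) [Fact p.Prime] :
    ((cycloChar p complexConjugation : (ZMod p)ˣ) : ZMod p) = -1 := by
  have hp : p.Prime := Fact.out
  haveI : NeZero p := ⟨hp.ne_zero⟩
  haveI : NeZero ((p : ℕ) : AlgebraicClosure ℚ) := ⟨Nat.cast_ne_zero.mpr hp.ne_zero⟩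
  obtain ⟨ζ, hζ⟩ := HasEnoughRootsOfUnity.exists_primitiveRoot (AlgebraicClosure ℚ) p
  have h1 := sb_cycloChar_spec (p := p) complexConjugation hζ.pow_eq_one
  rw [s56h0_conj_root ζ p hp.ne_zero hζ.pow_eq_one] at h1
  have hζ0 : ζ ≠ 0 := hζ.ne_zero hp.ne_zero
  have h2 : ζ ^ (((cycloChar p complexConjugation : (ZMod p)ˣ) : ZMod p).val + 1) = 1 := by
    rw [pow_succ, ← h1, inv_mul_cancel₀ hζ0]
  have h3 : p ∣ ((cycloChar p complexConjugation : (ZMod p)ˣ) : ZMod p).val + 1 :=
    (hζ.pow_eq_one_iff_dvd _).mp h2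
  have h4 : (((((cycloChar p complexConjugation : (ZMod p)ˣ) : ZMod p).val + 1 : ℕ)) : ZMod p) = 0 :=
    (ZMod.natCast_eq_zero_iff _ _).mpr h3
  rw [Nat.cast_add, Nat.cast_one, ZMod.natCast_zmod_val] at h4
  exact eq_neg_of_add_eq_zero_left h4

/-- `det ρ̄(c) = -1` from `DetIsCyclotomic` -/
theorem s56h0_det_conj {k : Type} [Field k] (p : ℕ) [Fact p.Prime] [CharP k p]
    (ρbar : ResidualGaloisRep k)
    (hdet : (GaloisRepAdic.ofResidualGaloisRep ρbar).DetIsCyclotomic p) :
    LinearMap.det (ρbar.ρ complexConjugation) = -1 := by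
  have hp : p.Prime := Fact.out
  have h := hdet.2 1 complexConjugation (p - 1) (fun μ hμ => by
    rw [pow_one] at hμ
    rw [s56h0_conj_root μ p hp.ne_zero hμ]
    have hμ0 : μ ≠ 0 := fun h0 => by
      rw [h0, zero_pow hp.ne_zero] at hμ
      exact zero_ne_one hμ
    apply mul_left_cancel₀ hμ0
    rw [mul_inv_cancel₀ hμ0, ← pow_succ', Nat.sub_add_cancel hp.one_le, hμ])
  have h0 : (((p ^ 1 : ℕ)) : k) = 0 := by rw [pow_one]; exact CharP.cast_eq_zero k p
  rw [h0, Ideal.mem_span_singleton, zero_dvd_iff, sub_eq_zero] at h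
  have h' : LinearMap.det (ρbar.ρ complexConjugation) = ((p - 1 : ℕ) : k) := h
  rw [h', Nat.cast_sub hp.one_le, CharP.cast_eq_zero k p, Nat.cast_one, zero_sub]

section Invol

variable {k V : Type} [Field k] [AddCommGroup V] [Module k V]

/-- an involution of determinant `-1` on a plane has an eigenbasis with eigenvalues `1, -1` -/
theorem s56h0_invol_basis (h2 : (2 : k) ≠ 0) (hV : Module.finrank k V = 2)
    (T : Module.End k V) (hT : T * T = 1) (hdet : LinearMap.det T = -1) :
    ∃ b : Module.Basis (Fin 2) k V, T (b 0) = b 0 ∧ T (b 1) = - b 1 := by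
  have hTT : ∀ v, T (T v) = v := fun v => by
    have := congrArg (fun φ : Module.End k V => φ v) hT
    simpa using this
  have h11 : (1 : k) ≠ -1 := fun h => h2 (by
    have : (2 : k) = 1 + 1 := by norm_num
    rw [this]
    nth_rewrite 2 [h]
    ring)
  have hT1 : T ≠ 1 := fun h => by
    rw [h, map_one] at hdet
    exact h11 hdet
  have hT2 : T ≠ -1 := fun h => by
    have : (-1 : Module.End k V) = (-1 : k) • (1 : Module.End k V) := by simp
    rw [h, this, LinearMap.det_smul, hV, map_one] at hdet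
    norm_num at hdet
    exact h11 hdet
  obtain ⟨v, hv⟩ : ∃ v, T v ≠ -v := by
    by_contra hcon
    exact hT2 (LinearMap.ext fun v => not_not.mp fun hv => hcon ⟨v, hv⟩)
  obtain ⟨w, hw⟩ : ∃ w, T w ≠ w := by
    by_contra hcon
    exact hT1 (LinearMap.ext fun v => not_not.mp fun hv => hcon ⟨v, hv⟩)
  set e₁ := v + T v with he₁
  set e₂ := w - T w with he₂
  have he₁0 : e₁ ≠ 0 := fun h => hv (by
    rw [he₁] at h
    exact (neg_eq_of_add_eq_zero_right h).symm ▸ rfl)
  have he₂0 : e₂ ≠ 0 := fun h => hw (by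
    rw [he₂, sub_eq_zero] at h
    exact h.symm)
  have hTe₁ : T e₁ = e₁ := by rw [he₁, map_add, hTT, add_comm]
  have hTe₂ : T e₂ = -e₂ := by rw [he₂, map_sub, hTT, neg_sub]
  have hli : LinearIndependent k ![e₁, e₂] := by
    rw [LinearIndependent.pair_iff]
    intro s t hst
    have h1 : s • e₁ - t • e₂ = 0 := by
      have := congrArg T hst
      rw [map_add, map_smul, map_smul, hTe₁, hTe₂, map_zero, smul_neg, ← sub_eq_add_neg] at this
      exact this
    have hs : (2 * s) • e₁ = 0 := by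
      have : (2 * s) • e₁ = (s • e₁ + t • e₂) + (s • e₁ - t • e₂) := by
        rw [two_mul, add_smul]; abel
      rw [this, hst, h1, add_zero]
    have ht : (2 * t) • e₂ = 0 := by
      have : (2 * t) • e₂ = (s • e₁ + t • e₂) - (s • e₁ - t • e₂) := by
        rw [two_mul, add_smul]; abel
      rw [this, hst, h1, sub_zero]
    rw [smul_eq_zero] at hs ht
    exact ⟨(mul_eq_zero.mp (hs.resolve_right he₁0)).resolve_left h2,
      (mul_eq_zero.mp (ht.resolve_right he₂0)).resolve_left h2⟩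
  refine ⟨basisOfLinearIndependentOfCardEqFinrank hli (by rw [hV]; rfl), ?_, ?_⟩
  · rw [coe_basisOfLinearIndependentOfCardEqFinrank]
    exact hTe₁
  · rw [coe_basisOfLinearIndependentOfCardEqFinrank]
    exact hTe₂

/-- the centraliser of such an involution in the trace-zero endomorphisms is the line `k·T` -/
theorem s56h0_invol_centraliser (h2 : (2 : k) ≠ 0) (hV : Module.finrank k V = 2)
    (T : Module.End k V) (hT : T * T = 1) (hdet : LinearMap.det T = -1) :
    LinearMap.trace k V T = 0 ∧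
    ∀ f : Module.End k V, LinearMap.trace k V f = 0 → T * f = f * T → ∃ a : k, f = a • T := by
  obtain ⟨b, hb0, hb1⟩ := s56h0_invol_basis h2 hV T hT hdet
  have hrepr : ∀ x : V, x = b.repr x 0 • b 0 + b.repr x 1 • b 1 := fun x => by
    conv_lhs => rw [← b.sum_repr x, Fin.sum_univ_two]
  have htrace : ∀ f : Module.End k V,
      LinearMap.trace k V f = b.repr (f (b 0)) 0 + b.repr (f (b 1)) 1 := fun f => by
    rw [LinearMap.trace_eq_matrix_trace k b f, Matrix.trace_fin_two, LinearMap.toMatrix_apply,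
      LinearMap.toMatrix_apply]
  refine ⟨?_, fun f htr hcomm => ?_⟩
  · rw [htrace, hb0, hb1, map_neg]
    simp [Module.Basis.repr_self]
  · have hc : ∀ x, T (f x) = f (T x) := fun x => by
      have := congrArg (fun φ : Module.End k V => φ x) hcomm
      simpa using this
    -- `f (b 0)` is fixed by `T`
    have h0 : b.repr (f (b 0)) 1 = 0 := by
      have h := hc (b 0)
      rw [hb0] at h
      have h' := congrArg (fun x => b.repr x 1) h
      nth_rewrite 1 [hrepr (f (b 0))] at h'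
      rw [map_add, map_smul, map_smul, hb0, hb1] at h'
      simp only [map_add, map_smul, map_neg, Module.Basis.repr_self, Finsupp.coe_add,
        Finsupp.coe_smul, Finsupp.coe_neg, Pi.add_apply, Pi.smul_apply, Pi.neg_apply,
        smul_eq_mul] at h'
      rw [Finsupp.single_eq_same, Finsupp.single_eq_of_ne (by decide)] at h'
      have : (2 : k) * b.repr (f (b 0)) 1 = 0 := by linear_combination -h'
      exact (mul_eq_zero.mp this).resolve_left h2
    have h1 : b.repr (f (b 1)) 0 = 0 := by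
      have h := hc (b 1)
      rw [hb1, map_neg] at h
      have h' := congrArg (fun x => b.repr x 0) h
      nth_rewrite 1 [hrepr (f (b 1))] at h'
      rw [map_add, map_smul, map_smul, hb0, hb1] at h'
      simp only [map_add, map_smul, map_neg, Module.Basis.repr_self, Finsupp.coe_add,
        Finsupp.coe_smul, Finsupp.coe_neg, Pi.add_apply, Pi.smul_apply, Pi.neg_apply,
        smul_eq_mul] at h'
      rw [Finsupp.single_eq_same, Finsupp.single_eq_of_ne (by decide)] at h'
      have : (2 : k) * b.repr (f (b 1)) 0 = 0 := by linear_combination h'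
      exact (mul_eq_zero.mp this).resolve_left h2
    have htr' := htrace f
    rw [htr] at htr'
    refine ⟨b.repr (f (b 0)) 0, b.ext fun i => ?_⟩
    fin_cases i
    · show f (b 0) = (b.repr (f (b 0)) 0 • T) (b 0)
      rw [LinearMap.smul_apply, hb0]
      conv_lhs => rw [hrepr (f (b 0)), h0, zero_smul, add_zero]
    · show f (b 1) = (b.repr (f (b 0)) 0 • T) (b 1)
      rw [LinearMap.smul_apply, hb1]
      conv_lhs => rw [hrepr (f (b 1)), h1, zero_smul, zero_add]
      have : b.repr (f (b 1)) 1 = - b.repr (f (b 0)) 0 := by linear_combination -htr'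
      rw [this, neg_smul, smul_neg]

end Invol

end Conj

section ConjCount

variable {k : Type} [Field k] [Finite k] (p : ℕ) [Fact p.Prime] [CharP k p]
  (ρbar : ResidualGaloisRep k)

/-- the `+1`-eigenspace of complex conjugation on `ad⁰ρ̄` (as an `𝔽_p`-subspace) -/
def s56h0Plus : Submodule (ZMod p) (S56Ad0 ρbar) :=
  LinearMap.ker (s56Ad0 p ρbar complexConjugation - 1)

theorem mem_s56h0Plus (f : S56Ad0 ρbar) :
    f ∈ s56h0Plus p ρbar ↔
      ρbar.ρ complexConjugation * f.val * ρbar.ρ complexConjugation = f.val := by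
  unfold s56h0Plus
  rw [LinearMap.mem_ker, LinearMap.sub_apply, Module.End.one_apply, sub_eq_zero]
  constructor
  · intro h
    have := congrArg S56Ad0.val h
    rw [s56Ad0_apply, complexConjugation_inv] at this
    exact this
  · intro h
    apply S56Ad0.ext
    rw [s56Ad0_apply, complexConjugation_inv]
    exact h

/-- `(ad⁰ρ̄)^{c = 1}` is a line over `k` -/
theorem s56h0_card_plus (hp2 : p ≠ 2)
    (hdet : (GaloisRepAdic.ofResidualGaloisRep ρbar).DetIsCyclotomic p) :
    Nat.card ↥(s56h0Plus p ρbar) = Nat.card k := by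
  set T := ρbar.ρ complexConjugation with hT
  have h2 : (2 : k) ≠ 0 := s56h0_two_ne_zero p hp2
  have hTT : T * T = 1 := by rw [hT, ← map_mul, complexConjugation_mul_self, map_one]
  have hdetT : LinearMap.det T = -1 := s56h0_det_conj p ρbar hdet
  obtain ⟨htrT, hcent⟩ := s56h0_invol_centraliser h2 ρbar.finrank_eq T hTT hdetT
  haveI : Nontrivial ρbar.V :=
    Module.nontrivial_of_finrank_pos (R := k) (by rw [ρbar.finrank_eq]; norm_num)
  have hT0 : T ≠ 0 := fun h => by
    rw [h, mul_zero] at hTT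
    exact zero_ne_one hTT
  symm
  refine Nat.card_congr (Equiv.ofBijective
    (fun a : k => (⟨S56Ad0.mk (a • T) (by rw [map_smul, htrT, smul_zero]), by
      rw [mem_s56h0Plus, S56Ad0.val_mk, mul_smul_comm, smul_mul_assoc, mul_assoc, hTT,
        mul_one]⟩ : ↥(s56h0Plus p ρbar))) ⟨?_, ?_⟩)
  · intro a b hab
    have h1 := congrArg (fun x : ↥(s56h0Plus p ρbar) => (x : S56Ad0 ρbar).val) hab
    simp only [S56Ad0.val_mk] at h1
    have h3 : (a - b) • T = 0 := by rw [sub_smul, h1, sub_self]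
    rw [smul_eq_zero] at h3
    exact sub_eq_zero.mp (h3.resolve_right hT0)
  · rintro ⟨f, hf⟩
    rw [mem_s56h0Plus] at hf
    have hcomm : T * f.val = f.val * T := by
      calc T * f.val = T * f.val * (T * T) := by rw [hTT, mul_one]
        _ = (T * f.val * T) * T := by simp only [mul_assoc]
        _ = f.val * T := by rw [hf]
    obtain ⟨a, ha⟩ := hcent f.val f.trace_val hcomm
    refine ⟨a, Subtype.ext (S56Ad0.ext ?_)⟩
    rw [S56Ad0.val_mk, ha]

/-- `2 ≠ 0` in `ZMod p`, `p` odd -/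
theorem s56h0_two_ne_zero_zmod (hp2 : p ≠ 2) : (2 : ZMod p) ≠ 0 :=
  s56h0_two_ne_zero (k := ZMod p) p hp2

/-- the fixed space of `-c^∨` on the dual is the annihilator of `(ad⁰ρ̄)^{c=1}` -/
theorem s56h0_ker_conj_eq (hp2 : p ≠ 2) (φ : Module.Dual (ZMod p) (S56Ad0 ρbar)) :
    (-1 : ZMod p) • (φ ∘ₗ (s56Ad0 p ρbar complexConjugation)) = φ ↔
      φ ∈ (s56h0Plus p ρbar).dualAnnihilator := by
  have h2 := s56h0_two_ne_zero_zmod p hp2
  rw [Submodule.mem_dualAnnihilator]
  constructor
  · intro h f hf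
    have hf' : s56Ad0 p ρbar complexConjugation f = f := by
      have := LinearMap.mem_ker.mp hf
      rwa [LinearMap.sub_apply, Module.End.one_apply, sub_eq_zero] at this
    have h1 := congrArg (fun ψ : Module.Dual (ZMod p) (S56Ad0 ρbar) => ψ f) h
    simp only [LinearMap.smul_apply, LinearMap.comp_apply, hf', smul_eq_mul] at h1
    have : (2 : ZMod p) * φ f = 0 := by linear_combination -h1
    exact (mul_eq_zero.mp this).resolve_left h2
  · intro h
    apply LinearMap.ext
    intro f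
    have hmem : f + s56Ad0 p ρbar complexConjugation f ∈ s56h0Plus p ρbar := by
      unfold s56h0Plus
      rw [LinearMap.mem_ker, LinearMap.sub_apply, Module.End.one_apply, map_add]
      have : s56Ad0 p ρbar complexConjugation (s56Ad0 p ρbar complexConjugation f) = f := by
        rw [← Module.End.mul_apply, ← map_mul, complexConjugation_mul_self, map_one,
          Module.End.one_apply]
      rw [this]
      abel
    have h1 := h _ hmem
    rw [map_add] at h1
    simp only [LinearMap.smul_apply, LinearMap.comp_apply, smul_eq_mul]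
    linear_combination -h1

/-- the action of `c` on `ad⁰ρ̄(1)`, explicitly -/
theorem s56h0_dualTwist_conj (φ : Module.Dual (ZMod p) (S56Ad0 ρbar)) :
    ((s56Ad0Rep p ρbar).dualTwist (cycloChar p)).ρ complexConjugation φ =
      (-1 : ZMod p) • (φ ∘ₗ (s56Ad0 p ρbar complexConjugation)) := by
  have h := Rep.dualTwist_ρ_apply (s56Ad0Rep p ρbar) (cycloChar p) complexConjugation φ
  rw [s56h0_cycloChar_conj, complexConjugation_inv] at h
  exact h

/-- the count -/
theorem s56h0_conj_count (hp2 : p ≠ 2)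
    (hdet : (GaloisRepAdic.ofResidualGaloisRep ρbar).DetIsCyclotomic p) :
    Nat.card ((s56Ad0Rep p ρbar).dualTwist (cycloChar p)) =
      Nat.card k *
        Nat.card ↥(LinearMap.ker
          (((s56Ad0Rep p ρbar).dualTwist (cycloChar p)).ρ complexConjugation - 1)) := by
  have e : ↥(LinearMap.ker
      (((s56Ad0Rep p ρbar).dualTwist (cycloChar p)).ρ complexConjugation - 1)) ≃
      ↥(s56h0Plus p ρbar).dualAnnihilator :=
    Equiv.subtypeEquivRight (fun φ => by
      rw [LinearMap.mem_ker, LinearMap.sub_apply, Module.End.one_apply, sub_eq_zero]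
      have h := s56h0_dualTwist_conj p ρbar φ
      exact ⟨fun h1 => (s56h0_ker_conj_eq p ρbar hp2 φ).mp (h.symm.trans h1),
        fun h1 => h.trans ((s56h0_ker_conj_eq p ρbar hp2 φ).mpr h1)⟩)
  rw [Nat.card_congr e, ← s56h0_card_plus p ρbar hp2 hdet]
  show Nat.card (Module.Dual (ZMod p) (S56Ad0 ρbar)) = _
  rw [Module.natCard_eq_pow_finrank (K := ZMod p) (V := Module.Dual (ZMod p) (S56Ad0 ρbar)),
    Module.natCard_eq_pow_finrank (K := ZMod p) (V := ↥(s56h0Plus p ρbar)),
    Module.natCard_eq_pow_finrank (K := ZMod p) (V := ↥(s56h0Plus p ρbar).dualAnnihilator),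
    ← pow_add, Subspace.finrank_add_finrank_dualAnnihilator_eq, Subspace.dual_finrank_eq]

end ConjCount

section TraceForm

variable {k V : Type} [Field k] [AddCommGroup V] [Module k V] [Module.Finite k V]

/-- the trace form on `End V` is nondegenerate -/
theorem s56h0_trace_nondeg (D : Module.End k V)
    (h : ∀ g : Module.End k V, LinearMap.trace k V (D * g) = 0) : D = 0 := by
  classical
  set b := Module.finBasis k V with hb
  apply (LinearMap.toMatrix b b).injective
  rw [map_zero]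
  refine Matrix.ext_iff_trace_mul_right.mpr fun x => ?_
  rw [Matrix.zero_mul, Matrix.trace_zero]
  have := h (Matrix.toLin b b x)
  rw [LinearMap.trace_eq_matrix_trace k b, LinearMap.toMatrix_mul, LinearMap.toMatrix_toLin] at this
  exact this

/-- the trace form on the trace-zero endomorphisms of a plane is nondegenerate (`2 ≠ 0`) -/
theorem s56h0_trace_nondeg_ad0 (h2 : (2 : k) ≠ 0) (hV : Module.finrank k V = 2)
    (D : Module.End k V) (hD : LinearMap.trace k V D = 0)
    (h : ∀ f : Module.End k V, LinearMap.trace k V f = 0 → LinearMap.trace k V (D * f) = 0) :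
    D = 0 := by
  apply s56h0_trace_nondeg
  intro g
  set t := LinearMap.trace k V g with ht
  set g₀ : Module.End k V := g - (t / 2) • 1 with hg₀
  have htr0 : LinearMap.trace k V g₀ = 0 := by
    rw [hg₀, map_sub, map_smul, LinearMap.trace_one, hV, ← ht, smul_eq_mul]
    push_cast
    field_simp
    ring
  have hg : g = g₀ + (t / 2) • 1 := by rw [hg₀]; abel
  rw [hg, mul_add, map_add, h g₀ htr0, mul_smul_comm, mul_one, map_smul, hD, smul_zero, add_zero]

end TraceForm

section Theta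

variable {k : Type} [Field k] (p : ℕ) [Fact p.Prime] [CharP k p]

/-- additive maps `k → 𝔽_p` are `𝔽_p`-linear -/
theorem s56h0_addHom_cast (ℓ : k →+ ZMod p) (c : ZMod p) (x : k) :
    ℓ (ZMod.castHom (dvd_refl p) k c * x) = c * ℓ x := by
  haveI : NeZero p := ⟨(Fact.out : p.Prime).ne_zero⟩
  obtain ⟨n, rfl⟩ := ZMod.natCast_zmod_surjective c
  rw [map_natCast, ← nsmul_eq_mul, map_nsmul, nsmul_eq_mul]

/-- a nonzero additive functional `k → 𝔽_p` -/
theorem s56h0_exists_functional : ∃ ℓ : k →+ ZMod p, ℓ 1 ≠ 0 := by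
  letI : Algebra (ZMod p) k := (ZMod.castHom (dvd_refl p) k).toAlgebra
  by_contra h
  have h' : ∀ φ : Module.Dual (ZMod p) k, φ 1 = 0 := fun φ =>
    not_not.mp fun hφ => h ⟨φ.toAddMonoidHom, hφ⟩
  exact one_ne_zero ((Module.forall_dual_apply_eq_zero_iff (ZMod p) (1 : k)).mp h')

variable (ρbar : ResidualGaloisRep k)

/-- `A ↦ ℓ(tr(A ·))` -/
def s56h0Theta (ℓ : k →+ ZMod p) (A : S56Ad0 ρbar) : Module.Dual (ZMod p) (S56Ad0 ρbar) where
  toFun f := ℓ (LinearMap.trace k ρbar.V (A.val * f.val))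
  map_add' f g := by rw [S56Ad0.val_add, mul_add, map_add, map_add]
  map_smul' c f := by
    rw [s56_zmod_smul_def, S56Ad0.val_smul, mul_smul_comm, map_smul, smul_eq_mul,
      s56h0_addHom_cast, RingHom.id_apply, smul_eq_mul]

theorem s56h0Theta_apply (ℓ : k →+ ZMod p) (A f : S56Ad0 ρbar) :
    s56h0Theta p ρbar ℓ A f = ℓ (LinearMap.trace k ρbar.V (A.val * f.val)) := rfl

theorem s56h0Theta_injective (hp2 : p ≠ 2) (ℓ : k →+ ZMod p) (hℓ : ℓ 1 ≠ 0) (A B : S56Ad0 ρbar)
    (h : s56h0Theta p ρbar ℓ A = s56h0Theta p ρbar ℓ B) : A = B := by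
  have h2 : (2 : k) ≠ 0 := s56h0_two_ne_zero p hp2
  set D : Module.End k ρbar.V := A.val - B.val with hD
  have hDtr : LinearMap.trace k ρbar.V D = 0 := by
    rw [hD, map_sub, A.trace_val, B.trace_val, sub_zero]
  have key : ∀ f : S56Ad0 ρbar, ℓ (LinearMap.trace k ρbar.V (D * f.val)) = 0 := fun f => by
    have := congrArg (fun φ : Module.Dual (ZMod p) (S56Ad0 ρbar) => φ f) h
    simp only [s56h0Theta_apply] at this
    rw [hD, sub_mul, map_sub, map_sub, this, sub_self]
  have hD0 : D = 0 := by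
    apply s56h0_trace_nondeg_ad0 h2 ρbar.finrank_eq D hDtr
    intro f hf
    by_contra ht
    apply hℓ
    have := key ((LinearMap.trace k ρbar.V (D * f))⁻¹ • S56Ad0.mk f hf)
    rw [S56Ad0.val_smul, S56Ad0.val_mk, mul_smul_comm, map_smul, smul_eq_mul,
      inv_mul_cancel₀ ht] at this
    exact this
  apply S56Ad0.ext
  exact sub_eq_zero.mp hD0

theorem s56h0Theta_surjective [Finite k] (hp2 : p ≠ 2) (ℓ : k →+ ZMod p) (hℓ : ℓ 1 ≠ 0)
    (φ : Module.Dual (ZMod p) (S56Ad0 ρbar)) : ∃ A, s56h0Theta p ρbar ℓ A = φ := by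
  haveI : Finite (Module.Dual (ZMod p) (S56Ad0 ρbar)) := Module.finite_of_finite (ZMod p)
  have hinj : Function.Injective (s56h0Theta p ρbar ℓ) :=
    fun A B h => s56h0Theta_injective p ρbar hp2 ℓ hℓ A B h
  have hcard : Nat.card (Module.Dual (ZMod p) (S56Ad0 ρbar)) ≤ Nat.card (S56Ad0 ρbar) := by
    rw [Module.natCard_eq_pow_finrank (K := ZMod p) (V := Module.Dual (ZMod p) (S56Ad0 ρbar)),
      Module.natCard_eq_pow_finrank (K := ZMod p) (V := S56Ad0 ρbar), Subspace.dual_finrank_eq]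
  exact (hinj.bijective_of_nat_card_le hcard).2 φ

end Theta

section DualH0

variable {k : Type} [Field k] (p : ℕ) [Fact p.Prime] [CharP k p] (ρbar : ResidualGaloisRep k)

/-- an invariant functional `ℓ(tr(A ·))` gives a `χ`-twisted commutation relation -/
theorem s56h0_twisted_comm (hp2 : p ≠ 2) (ℓ : k →+ ZMod p) (hℓ : ℓ 1 ≠ 0) (A : S56Ad0 ρbar)
    (g : GQ)
    (hinv : ((s56Ad0Rep p ρbar).dualTwist (cycloChar p)).ρ g (s56h0Theta p ρbar ℓ A) =
      s56h0Theta p ρbar ℓ A) :
    A.val * ρbar.ρ g =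
      (ZMod.castHom (dvd_refl p) k ((cycloChar p g : (ZMod p)ˣ) : ZMod p)) • (ρbar.ρ g * A.val) := by
  set c : k := ZMod.castHom (dvd_refl p) k ((cycloChar p g : (ZMod p)ˣ) : ZMod p) with hc
  set B : S56Ad0 ρbar := c • s56AdConj ρbar g A with hB
  have hBA : s56h0Theta p ρbar ℓ B = s56h0Theta p ρbar ℓ A := by
    apply LinearMap.ext
    intro f
    have h1 : ((cycloChar p g : (ZMod p)ˣ) : ZMod p) *
        s56h0Theta p ρbar ℓ A (s56Ad0 p ρbar g⁻¹ f) = s56h0Theta p ρbar ℓ A f :=
      congrArg (fun φ : Module.Dual (ZMod p) (S56Ad0 ρbar) => φ f) hinv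
    rw [s56h0Theta_apply, s56h0Theta_apply, s56Ad0_apply, inv_inv] at h1
    rw [s56h0Theta_apply, s56h0Theta_apply, ← h1, hB, S56Ad0.val_smul, s56AdConj_val,
      smul_mul_assoc, map_smul, smul_eq_mul, hc, s56h0_addHom_cast]
    congr 2
    calc LinearMap.trace k ρbar.V (ρbar.ρ g * A.val * ρbar.ρ g⁻¹ * f.val)
        = LinearMap.trace k ρbar.V (ρbar.ρ g * (A.val * ρbar.ρ g⁻¹ * f.val)) := by
          simp only [mul_assoc]
      _ = LinearMap.trace k ρbar.V ((A.val * ρbar.ρ g⁻¹ * f.val) * ρbar.ρ g) :=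
          LinearMap.trace_mul_comm k _ _
      _ = LinearMap.trace k ρbar.V (A.val * (ρbar.ρ g⁻¹ * f.val * ρbar.ρ g)) := by
          simp only [mul_assoc]
  have hBA' := s56h0Theta_injective p ρbar hp2 ℓ hℓ B A hBA
  have h3 := congrArg S56Ad0.val hBA'
  rw [hB, S56Ad0.val_smul, s56AdConj_val] at h3
  calc A.val * ρbar.ρ g = (c • (ρbar.ρ g * A.val * ρbar.ρ g⁻¹)) * ρbar.ρ g := by rw [h3]
    _ = c • (ρbar.ρ g * A.val * (ρbar.ρ g⁻¹ * ρbar.ρ g)) := by
        rw [smul_mul_assoc]; simp only [mul_assoc]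
    _ = c • (ρbar.ρ g * A.val) := by rw [s56_rho_inv_mul, mul_one]

/-- a twisted-commuting endomorphism is zero or the twist is quadratic -/
theorem s56h0_zero_or_sq (habs : ρbar.IsAbsolutelyIrreducible) (A : Module.End k ρbar.V)
    (c : GQ → k) (hA : ∀ g, A * ρbar.ρ g = c g • (ρbar.ρ g * A)) :
    A = 0 ∨ ∀ g, c g ^ 2 = 1 := by
  classical
  set K := AlgebraicClosure k with hK
  set ρ' := ρbar.baseChange K with hρ'
  set A' : Module.End K ρ'.V := A.baseChange K with hA'
  have hfin : Module.finrank K ρ'.V = 2 := ρ'.finrank_eq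
  haveI : FiniteDimensional K ρ'.V := Module.finite_of_finrank_eq_succ hfin
  have hcomm : ∀ g, A' * ρ'.ρ g = c g • (ρ'.ρ g * A') := fun g => by
    show LinearMap.baseChange K A * LinearMap.baseChange K (ρbar.ρ g) =
      c g • (LinearMap.baseChange K (ρbar.ρ g) * LinearMap.baseChange K A)
    rw [← LinearMap.baseChange_mul, ← LinearMap.baseChange_mul, hA g, LinearMap.baseChange_smul]
  have hstab : ∀ σ : GQ, ∀ x ∈ LinearMap.ker A', ρ'.ρ σ x ∈ LinearMap.ker A' := by
    intro σ x hx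
    rw [LinearMap.mem_ker] at hx ⊢
    have := congrArg (fun φ : Module.End K ρ'.V => φ x) (hcomm σ)
    simp only [Module.End.mul_apply, LinearMap.smul_apply] at this
    rw [this, hx, map_zero, smul_zero]
  rcases habs _ hstab with h | h
  · right
    have hdet' : LinearMap.det A' ≠ 0 := fun h0 => by
      have := LinearMap.bot_lt_ker_of_det_eq_zero h0
      rw [h] at this
      exact lt_irrefl _ this
    have hdet : LinearMap.det A ≠ 0 := fun h0 => by
      apply hdet'
      rw [hA', LinearMap.det_baseChange, h0, map_zero]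
    intro g
    have h1 := congrArg LinearMap.det (hA g)
    rw [map_mul, LinearMap.det_smul, ρbar.finrank_eq, map_mul] at h1
    have hρdet : LinearMap.det (ρbar.ρ g) ≠ 0 := fun h0 => by
      have := congrArg LinearMap.det (s56_rho_mul_inv ρbar g)
      rw [map_mul, h0, zero_mul, map_one] at this
      exact zero_ne_one this
    have h2 : (c g ^ 2 - 1) * (LinearMap.det (ρbar.ρ g) * LinearMap.det A) = 0 := by
      linear_combination -h1
    rcases mul_eq_zero.mp h2 with h3 | h3
    · exact sub_eq_zero.mp h3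
    · exact absurd h3 (mul_ne_zero hρdet hdet)
  · left
    ext v
    have hv : A' ((1 : K) ⊗ₜ[k] v) = 0 := LinearMap.mem_ker.mp (h ▸ Submodule.mem_top)
    rw [hA', LinearMap.baseChange_tmul] at hv
    have hinj := Module.FaithfullyFlat.tensorProduct_mk_injective (A := k) (B := K) ρbar.V
    have : (TensorProduct.mk k K ρbar.V 1) (A v) = (TensorProduct.mk k K ρbar.V 1) 0 := by
      rw [map_zero]
      exact hv
    rw [LinearMap.zero_apply]
    exact hinj this

/-- if `χ² = 1` then `ker χ` has index `2` (as `χ(c) = -1 ≠ 1`) -/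
theorem s56h0_index_ker (hp2 : p ≠ 2)
    (h : ∀ g : GQ, ((cycloChar p g : (ZMod p)ˣ) : ZMod p) ^ 2 = 1) :
    (cycloChar p).ker.index = 2 := by
  have h2 := s56h0_two_ne_zero_zmod p hp2
  have h11 : (-1 : ZMod p) ≠ 1 := fun h' => h2 (by
    have : (2 : ZMod p) = 1 + 1 := by norm_num
    rw [this]
    nth_rewrite 1 [← h']
    ring)
  have hmem : ∀ b : GQ, b ∈ (cycloChar p).ker ↔ ((cycloChar p b : (ZMod p)ˣ) : ZMod p) = 1 :=
    fun b => by rw [MonoidHom.mem_ker, Units.ext_iff, Units.val_one]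
  have hmulc : ∀ b : GQ, ((cycloChar p (b * complexConjugation) : (ZMod p)ˣ) : ZMod p) =
      - ((cycloChar p b : (ZMod p)ˣ) : ZMod p) := fun b => by
    rw [map_mul, Units.val_mul, s56h0_cycloChar_conj, mul_neg_one]
  rw [Subgroup.index_eq_two_iff]
  refine ⟨complexConjugation, fun b => ?_⟩
  have hb := h b
  rw [sq, mul_self_eq_one_iff] at hb
  rcases hb with hb | hb
  · refine Or.inr ⟨(hmem b).mpr hb, fun hbc => ?_⟩
    rw [hmem, hmulc, hb] at hbc
    exact h11 hbc
  · refine Or.inl ⟨?_, fun hbm => ?_⟩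
    · rw [hmem, hmulc, hb, neg_neg]
    · rw [hmem, hb] at hbm
      exact h11 hbm

/-- `H⁰(ℚ, ad⁰ρ̄(1)) = 0` -/
theorem s56h0_adDual_h0 [Finite k] (hp2 : p ≠ 2) (habs : ρbar.IsAbsolutelyIrreducible)
    (hTW : ∀ (G : Subgroup GQ), G.index = 2 →
      ∀ W : Submodule (AlgebraicClosure k) (ρbar.baseChange (AlgebraicClosure k)).V,
        (∀ σ ∈ G, ∀ x ∈ W, (ρbar.baseChange (AlgebraicClosure k)).ρ σ x ∈ W) → W = ⊥ ∨ W = ⊤) :
    smH0 ((s56Ad0Rep p ρbar).dualTwist (cycloChar p)).ρ = ⊥ := by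
  rw [Submodule.eq_bot_iff]
  intro φ hφ
  have hφ' : ∀ g : GQ, ((s56Ad0Rep p ρbar).dualTwist (cycloChar p)).ρ g φ = φ := by
    intro g
    have := congrFun (LinearMap.mem_ker.mp hφ) g
    simp only [dd0, LinearMap.coe_mk, AddHom.coe_mk, Pi.zero_apply, sub_eq_zero] at this
    exact this
  obtain ⟨ℓ, hℓ⟩ := s56h0_exists_functional (k := k) p
  obtain ⟨A, hA⟩ := s56h0Theta_surjective p ρbar hp2 ℓ hℓ φ
  have hcomm : ∀ g, A.val * ρbar.ρ g =
      (ZMod.castHom (dvd_refl p) k ((cycloChar p g : (ZMod p)ˣ) : ZMod p)) •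
        (ρbar.ρ g * A.val) := fun g =>
    s56h0_twisted_comm p ρbar hp2 ℓ hℓ A g (by rw [hA]; exact hφ' g)
  have hA0 : A.val = 0 := by
    rcases s56h0_zero_or_sq ρbar habs A.val _ hcomm with h | h
    · exact h
    · have hsq : ∀ g : GQ, ((cycloChar p g : (ZMod p)ˣ) : ZMod p) ^ 2 = 1 := fun g => by
        have := h g
        rw [← map_pow] at this
        exact (ZMod.castHom (dvd_refl p) k).injective (by rw [this, map_one])
      have hidx := s56h0_index_ker p hp2 hsq
      refine s56h0_schur ρbar (cycloChar p).ker (hTW _ hidx) (s56h0_two_ne_zero p hp2) A.val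
        (fun σ hσ => ?_) A.trace_val
      rw [hcomm σ, MonoidHom.mem_ker.mp hσ, Units.val_one, map_one, one_smul]
  have hA00 : A = 0 := S56Ad0.ext hA0
  rw [← hA, hA00]
  apply LinearMap.ext
  intro f
  rw [s56h0Theta_apply, S56Ad0.val_zero, zero_mul, map_zero, map_zero]
  rfl

end DualH0

section Main

variable {𝒪 : Type} [CommRing 𝒪] [IsDomain 𝒪] [IsDiscreteValuationRing 𝒪]
  [IsAdicComplete (maximalIdeal 𝒪) 𝒪] [Finite (ResidueField 𝒪)]
  (p : ℕ) [Fact p.Prime] [CharP (ResidueField 𝒪) p]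
  (ρbar : ResidualGaloisRep (ResidueField 𝒪))

/-- **leaf H0 (a).** `H⁰(ℚ, ad⁰ρ̄) = 0` (Schur, `p` odd) -/
theorem s56_ad_h0 (hp2 : p ≠ 2) (habs : ρbar.IsAbsolutelyIrreducible) :
    smH0 (s56Ad0 p ρbar) = ⊥ := by
  rw [Submodule.eq_bot_iff]
  intro f hf
  have hf' : ∀ g : GQ, s56Ad0 p ρbar g f = f := by
    intro g
    have := congrFun (LinearMap.mem_ker.mp hf) g
    simp only [dd0, LinearMap.coe_mk, AddHom.coe_mk, Pi.zero_apply, sub_eq_zero] at this
    exact this
  apply S56Ad0.ext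
  rw [S56Ad0.val_zero]
  refine s56h0_schur ρbar ⊤ (fun W hW => habs W (fun σ x hx => hW σ (Subgroup.mem_top σ) x hx))
    (s56h0_two_ne_zero p hp2) f.val (fun σ _ => ?_) f.trace_val
  have h1 := congrArg S56Ad0.val (hf' σ)
  rw [s56Ad0_apply] at h1
  calc f.val * ρbar.ρ σ = (ρbar.ρ σ * f.val * ρbar.ρ σ⁻¹) * ρbar.ρ σ := by rw [h1]
    _ = ρbar.ρ σ * f.val * (ρbar.ρ σ⁻¹ * ρbar.ρ σ) := by simp only [mul_assoc]
    _ = ρbar.ρ σ * f.val := by rw [s56_rho_inv_mul, mul_one]

/-- smoothness of `ad⁰ρ̄` (as a `Representation`) -/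
theorem s56h0_isSmooth (S' : Finset Nat.Primes)
    (hur : ∀ q : Nat.Primes, q ∉ S' → ρbar.IsUnramifiedAt (q : ℕ)) :
    IsSmoothRep (levelsS S') (s56Ad0 p ρbar) := by
  obtain ⟨L, hL, h1⟩ := ρbar.factorsThroughFiniteLevel
  have hle : L.fixingSubgroup ≤ ρbar.ρ.ker := fun σ hσ => by
    rw [MonoidHom.mem_ker]
    exact h1 σ (fun x hx => (IntermediateField.mem_fixingSubgroup_iff L σ).mp hσ x hx)
  obtain ⟨E, hEL, hE⟩ := sb_exists_field_of_le ρbar.ρ.ker L hL hle
  have hEur : E.IsUnramifiedOutside S' := by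
    refine ⟨?_, fun q hq A hA σ hσ => ?_⟩
    · haveI := hL
      exact FiniteDimensional.of_injective (IntermediateField.inclusion hEL).toLinearMap
        (IntermediateField.inclusion_injective hEL)
    · rw [← hE, MonoidHom.mem_ker]
      exact hur q hq A hA σ hσ
  intro f
  refine ⟨E.fixingSubgroup, ⟨E, hEur, rfl⟩, fun s hs => ?_⟩
  rw [← hE] at hs
  have hs1 : ρbar.ρ s = 1 := MonoidHom.mem_ker.mp hs
  have hs2 : ρbar.ρ s⁻¹ = 1 := MonoidHom.mem_ker.mp (inv_mem hs)
  apply S56Ad0.ext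
  rw [s56Ad0_apply, hs1, hs2, one_mul, mul_one]

/-- smoothness of `ad⁰ρ̄` for any `S'` containing the ramification of `ρ̄` and `p` -/
theorem s56_ad_isSmooth (S' : Finset Nat.Primes)
    (hur : ∀ q : Nat.Primes, q ∉ S' → ρbar.IsUnramifiedAt (q : ℕ)) :
    IsSmoothRep (levelsS S') (s56Ad0Rep p ρbar).ρ :=
  s56h0_isSmooth p ρbar S' hur

/-- **leaf H0 (c).** oddness: `#M* = #k · #(M*)^c` for `c = complexConjugation` -/
theorem s56_adDual_conj (hp2 : p ≠ 2)
    (hdet : (GaloisRepAdic.ofResidualGaloisRep ρbar).DetIsCyclotomic p) :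
    Nat.card ((s56Ad0Rep p ρbar).dualTwist (cycloChar p)) =
      Nat.card (ResidueField 𝒪) *
        Nat.card ↥(LinearMap.ker
          (((s56Ad0Rep p ρbar).dualTwist (cycloChar p)).ρ complexConjugation - 1)) :=
  s56h0_conj_count p ρbar hp2 hdet

/-- **leaf H0 (b).** `H⁰(ℚ, ad⁰ρ̄(1)) = 0` -/
theorem s56_adDual_h0 (hp2 : p ≠ 2) (habs : ρbar.IsAbsolutelyIrreducible)
    (hdet : (GaloisRepAdic.ofResidualGaloisRep ρbar).DetIsCyclotomic p)
    (hTW : ∀ (K : Type) [Field K] [Algebra (ResidueField 𝒪) K]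
      (G : Subgroup (AlgebraicClosure ℚ ≃ₐ[ℚ] AlgebraicClosure ℚ)), G.index = 2 →
      ∀ V : Submodule K (ρbar.baseChange K).V,
        (∀ σ ∈ G, ∀ x ∈ V, (ρbar.baseChange K).ρ σ x ∈ V) → V = ⊥ ∨ V = ⊤) :
    smH0 ((s56Ad0Rep p ρbar).dualTwist (cycloChar p)).ρ = ⊥ :=
  s56h0_adDual_h0 p ρbar hp2 habs (fun G hG => hTW (AlgebraicClosure (ResidueField 𝒪)) G hG)

end Main

end Fermat.Agent.S56
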