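/-
S56 / TOP, leaf FIN (row 352, helper22): finiteness of the local smooth `H¹` of a finite smooth
`𝔽_p`-module.  Route: restrict to an open subgroup `N = Gal(ℚ̄_q/E)` acting trivially, `ζ_p ∈ E`;
a cocycle is determined by its values on coset representatives of `Γ/N` and by the homomorphisms
`λ ∘ c|N : N → 𝔽_p` (`λ` a linear form), and `Hom_cont(N, 𝔽_p)` is finite by Kummer theory
(`lb_smZ1_finite`).  Helper lemmas are prefixed `s56fin_`.
-/
import Fermat.Agent.S56.Top.Defs
import Fermat.Agent.S55.LocalBridgeCrit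
import Fermat.Agent.S55.LG.QbarLevels

set_option autoImplicit false
set_option linter.unusedVariables false
set_option linter.style.haveILetI false
set_option linter.unusedSectionVars false

namespace Fermat.Agent.S56

open Fermat.Agent.S55

section Abstract

variable {k : Type} [Field k] [Finite k] {G : Type} [Group G] (𝓛 : Levels G)
  {V : Type*} [AddCommGroup V] [Module k V] [FiniteDimensional k V]
  (ρ : Representation k G V)

/-- the cocycle identity -/
theorem s56fin_cocycle {c : G → V} (hc : c ∈ smZ1 𝓛 ρ) (g h : G) :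
    c (g * h) = ρ g (c h) + c g := by
  have h1 := congrFun ((mem_smZ1 𝓛 ρ c).1 hc).1 (g, h)
  rw [dd1_apply, Pi.zero_apply] at h1
  have h2 : c (g * h) = ρ g (c h) + c g - (ρ g (c h) - c (g * h) + c g) := by abel
  rw [h2, h1, sub_zero]

/-- `λ ∘ c|N` is a smooth cocycle of `N` with trivial coefficients when `N` acts trivially -/
theorem s56fin_dual_comp_mem (N : Subgroup G) (hN : ∀ n ∈ N, ρ n = 1) {c : G → V}
    (hc : c ∈ smZ1 𝓛 ρ) (l : Module.Dual k V) :
    (fun n : ↥N => l (c (n : G))) ∈ smZ1 (𝓛.sub N) (1 : Representation k ↥N k) := by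
  rw [mem_smZ1]
  constructor
  · funext ⟨n, n'⟩
    rw [dd1_apply, Pi.zero_apply]
    show l (c ((n' : ↥N) : G)) - l (c (((n * n' : ↥N)) : G)) + l (c (n : G)) = 0
    rw [Subgroup.coe_mul, s56fin_cocycle 𝓛 ρ hc, hN n n.2, map_add]
    show l (c ((n' : ↥N) : G)) - (l (c ((n' : ↥N) : G)) + l (c (n : G))) + l (c (n : G)) = 0
    abel
  · have h1 : IsLC₁ 𝓛 c := ((mem_smZ1 𝓛 ρ c).1 hc).2
    have h2 := IsLC₁.comp_hom 𝓛 (Levels.continuous_comap 𝓛 N.subtype) h1
    exact h2.comp l

/-- finiteness of the smooth cocycles from finiteness of `Hom_cont(N, k)`, `N` of finite index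
acting trivially -/
theorem s56fin_finite_smZ1 (N : Subgroup G) [N.FiniteIndex] (hN : ∀ n ∈ N, ρ n = 1)
    (hfin : Finite ↥(smZ1 (𝓛.sub N) (1 : Representation k ↥N k))) :
    Finite ↥(smZ1 𝓛 ρ) := by
  haveI : Finite V := Module.finite_of_finite k
  haveI : Finite (Module.Dual k V) :=
    Finite.of_injective (fun l : Module.Dual k V => (l : V → k)) DFunLike.coe_injective
  haveI : Finite (G ⧸ N) := Subgroup.finite_quotient_of_finiteIndex
  let Ψ : ↥(smZ1 𝓛 ρ) → (G ⧸ N → V) ×
      (Module.Dual k V → ↥(smZ1 (𝓛.sub N) (1 : Representation k ↥N k))) :=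
    fun c => (fun x => (c : G → V) x.out,
      fun l => ⟨fun n : ↥N => l ((c : G → V) (n : G)), s56fin_dual_comp_mem 𝓛 ρ N hN c.2 l⟩)
  apply Finite.of_injective Ψ
  intro c c' hcc
  have h1 : ∀ x : G ⧸ N, (c : G → V) x.out = (c' : G → V) x.out := fun x =>
    congrFun (congrArg Prod.fst hcc) x
  have h2 : ∀ n : ↥N, (c : G → V) (n : G) = (c' : G → V) (n : G) := by
    intro n
    rw [← sub_eq_zero, ← Module.forall_dual_apply_eq_zero_iff k]
    intro l
    have := congrFun (congrArg Subtype.val (congrFun (congrArg Prod.snd hcc) l)) n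
    rw [map_sub, sub_eq_zero]
    exact this
  apply Subtype.ext
  funext g
  obtain ⟨s, hs, hg⟩ := sm_exists_out_mul N g
  rw [hg, s56fin_cocycle 𝓛 ρ c.2, s56fin_cocycle 𝓛 ρ c'.2, h1, h2 ⟨s, hs⟩]

end Abstract

section Local

variable (q : ℕ) [Fact q.Prime] {p : ℕ} [Fact p.Prime]
  {V : Type*} [AddCommGroup V] [Module (ZMod p) V] [FiniteDimensional (ZMod p) V]

/-- the smooth cocycles of `Gal(ℚ̄_q/ℚ_q)` in a finite smooth `𝔽_p`-module form a finite set -/
theorem s56fin_local_finite_smZ1 (ρ : Representation (ZMod p) (lbGal q) V)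
    (hρ : IsSmoothRep (lbLevels q) ρ) : Finite ↥(smZ1 (lbLevels q) ρ) := by
  have hp : p.Prime := Fact.out
  obtain ⟨U₀, ⟨E₀, hE₀, rfl⟩, -, htriv⟩ := hρ.exists_level_trivial
  haveI : CharZero (PadicAlgCl q) :=
    charZero_of_injective_algebraMap (algebraMap ℚ_[q] (PadicAlgCl q)).injective
  haveI : NeZero ((p : ℕ) : PadicAlgCl q) := ⟨Nat.cast_ne_zero.2 hp.ne_zero⟩
  obtain ⟨ζ, hζ⟩ := HasEnoughRootsOfUnity.exists_primitiveRoot (PadicAlgCl q) p
  have hζint : IsIntegral ℚ_[q] ζ := (hζ.isIntegral hp.pos).tower_top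
  haveI : FiniteDimensional ℚ_[q] ↥(IntermediateField.adjoin ℚ_[q] {ζ}) :=
    IntermediateField.adjoin.finiteDimensional hζint
  set E : IntermediateField ℚ_[q] (PadicAlgCl q) := E₀ ⊔ IntermediateField.adjoin ℚ_[q] {ζ}
    with hE
  haveI : FiniteDimensional ℚ_[q] ↥E := IntermediateField.finiteDimensional_sup _ _
  have hζE : ζ ∈ E :=
    (le_sup_right : IntermediateField.adjoin ℚ_[q] {ζ} ≤ E)
      (IntermediateField.mem_adjoin_simple_self ℚ_[q] ζ)
  have hle : E.fixingSubgroup ≤ E₀.fixingSubgroup :=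
    IntermediateField.fixingSubgroup_antitone le_sup_left
  haveI : E.fixingSubgroup.FiniteIndex :=
    (lbLevels q).finiteIndex _ ⟨E, inferInstance, rfl⟩
  have hmu : IsMuRep ζ E.fixingSubgroup (1 : Representation (ZMod p) ↥E.fixingSubgroup (ZMod p)) := by
    intro σ x
    rw [map_pow, lbk_fix_of_mem E hζE σ]
    rfl
  haveI hfinM := lb_smZ1_finite hζ E hζE 1 hmu
  have hfin : Finite ↥(smZ1 ((lbLevels q).sub E.fixingSubgroup)
      (1 : Representation (ZMod p) ↥E.fixingSubgroup (ZMod p))) := Module.finite_of_finite (ZMod p)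
  exact s56fin_finite_smZ1 (lbLevels q) ρ E.fixingSubgroup (fun n hn => htriv n (hle hn)) hfin

/-- the local smooth `H¹` of a finite smooth `𝔽_p`-module is finite -/
theorem s56fin_local_finite_smH1 (ρ : Representation (ZMod p) (lbGal q) V)
    (hρ : IsSmoothRep (lbLevels q) ρ) : FiniteDimensional (ZMod p) (smH1 (lbLevels q) ρ) := by
  haveI := s56fin_local_finite_smZ1 q ρ hρ
  haveI : Finite (smH1 (lbLevels q) ρ) := Quotient.finite _
  exact Module.Finite.of_finite

end Local

section Leaf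

variable {p : ℕ} [Fact p.Prime]

/-- **leaf FIN.** the local smooth `H¹` of a finite smooth module is finite (v2: the `H²` half of
374fd1a is DROPPED - `Top/Main.lean` derives it from the duality package, `s56m_local_h2_finite`) -/
theorem s56_local_finite (S : Finset Nat.Primes) (M : Rep.{0} (ZMod p) GQ)
    [FiniteDimensional (ZMod p) M] (hM : IsSmoothRep (levelsS S) M.ρ) (v : ↥S) :
    FiniteDimensional (ZMod p) (smH1 ((locSysS S).lev v) ((locSysS S).rep M.ρ v)) := by
  haveI : Fact ((v.1 : Nat.Primes) : ℕ).Prime := ⟨v.1.2⟩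
  have hsm : IsSmoothRep ((locSysS S).lev v) ((locSysS S).rep M.ρ v) :=
    IsSmoothRep.comp_hom ((locSysS S).cont v) hM
  have hlev := lg_locSysS_lev S v
  rw [hlev] at hsm ⊢
  exact s56fin_local_finite_smH1 ((v.1 : Nat.Primes) : ℕ) _ hsm

end Leaf

end Fermat.Agent.S56
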