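/-
S56 / TOP, leaf TWL (row 357, helper22): local facts at a Taylor–Wiles prime `q = v ∈ S'`:
`#H¹(ℚ_q, ad⁰ρ̄) ≤ #k · #H⁰(ℚ_q, ad⁰ρ̄)` and the local pairing `H¹(ℚ_q, ad⁰) × H¹(ℚ_q, ad⁰(1))` has
trivial right kernel.  Assembly of the LOC leaves C2 (`loc_tw_finrank_le`), C3
(`loc_tw_cupH11_nondeg_right`), C6 (`ad0_centralizer_proportional`, `loc_tw_prime_to_p`), S2
(`loc_exists_isFrobLift`) with the dictionary `Gal(ℚ̄_q/ℚ_q) → G_ℚ`.  Helper lemmas: prefix `s56twl`.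
-/
import Fermat.Agent.S56.Top.Defs
import Fermat.Agent.S56.Loc.All
import Fermat.Agent.S55.LG.QbarInertia
import Fermat.Agent.S55.LG.QbarLevels
import Fermat.Agent.S55.Asm.LamQ
import Fermat.Agent.S55.Bridge.Pair
import Fermat.Agent.S55.SB.Root

set_option autoImplicit false
set_option linter.unusedVariables false
set_option linter.unusedSectionVars false
set_option linter.style.haveILetI false

namespace Fermat.Agent.S56

open Fermat.Agent.S55 ExtCitation IsLocalRing Polynomial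

/-! ### the dictionary `Gal(ℚ̄_q/ℚ_q) → G_ℚ` -/

section Dict

variable (q : ℕ) [Fact q.Prime]

/-- a Frobenius lift of `Gal(ℚ̄_q/ℚ_q)` is a Frobenius at `padicPlace q` in the Prelude's sense -/
theorem s56twl_isFrobeniusAt (φ : lbGal q) (hφ : IsFrobLift q φ) :
    (padicPlace q).IsFrobeniusAt (localGaloisToGlobal q φ) q := by
  refine ⟨localGaloisToGlobal_mem_decompositionSubgroup q φ, fun x => ?_⟩
  obtain ⟨a, rfl⟩ := IsLocalRing.residue_surjective x
  rw [← IsLocalRing.ResidueField.residue_smul, ← map_pow, ← sub_eq_zero, ← map_sub,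
    IsLocalRing.residue_eq_zero_iff]
  have hmem : ((localGaloisToGlobal q φ) (a : AlgebraicClosure ℚ) - (a : AlgebraicClosure ℚ) ^ q) ∈
      (padicPlace q).nonunits := by
    rw [lgqi_mem_nonunits_padicPlace_iff, map_sub, map_pow, padicEmbedding_localGaloisToGlobal]
    exact hφ _ ((lgqi_mem_padicPlace_iff q _).1 a.2)
  obtain ⟨h1, h2⟩ := ValuationSubring.mem_nonunits_iff_exists_mem_maximalIdeal.1 hmem
  convert h2 using 1
  apply Subtype.ext
  rfl

end Dict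

/-! ### injectivity of the local invariant over `ℚ_q` -/

section InvInj

variable {k : Type*} [CommRing k] {G : Type*} [Group G] (𝓛 : Levels G)
  {V : Type*} [AddCommGroup V] [Module k V] (ρ : Representation k G V)

/-- restriction to the subgroup `⊤` is injective on smooth `H²` -/
theorem s56twl_smH2res_top_injective :
    Function.Injective (smH2res (𝓛H := 𝓛.sub (⊤ : Subgroup G)) ρ
      (Levels.continuous_comap 𝓛 (⊤ : Subgroup G).subtype)) := by
  rw [injective_iff_map_eq_zero]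
  intro x hx
  obtain ⟨f, rfl⟩ := Submodule.mkQ_surjective _ x
  rw [show Submodule.mkQ _ f = smH2π 𝓛 ρ f from rfl, smH2res_mk, smH2π_eq_zero_iff, mem_smB2] at hx
  obtain ⟨y, hy, hyf⟩ := hx
  rw [show Submodule.mkQ _ f = smH2π 𝓛 ρ f from rfl, smH2π_eq_zero_iff, mem_smB2]
  refine ⟨fun g => y ⟨g, Subgroup.mem_top _⟩, ?_, ?_⟩
  · obtain ⟨_, ⟨U, hU, rfl⟩, hc⟩ := hy
    exact ⟨U, hU, fun g s hs => hc ⟨g, Subgroup.mem_top _⟩ ⟨s, Subgroup.mem_top _⟩ hs⟩
  · funext ⟨g, h⟩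
    have h1 := congrFun hyf ((⟨g, Subgroup.mem_top _⟩ : ↥(⊤ : Subgroup G)),
      (⟨h, Subgroup.mem_top _⟩ : ↥(⊤ : Subgroup G)))
    simp only [dd1_apply] at h1 ⊢
    exact h1

end InvInj

section InvInjQ

variable {p : ℕ} [Fact p.Prime] (S : Finset Nat.Primes)

/-- the local invariant of `ℚ_q`, `q ∈ S`, is injective -/
theorem s56twl_asmInvQAt_injective (v : ↥S) : Function.Injective (asmInvQAt p S v) := by
  haveI : Fact ((v.1 : Nat.Primes) : ℕ).Prime := ⟨v.1.2⟩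
  have hζ₀ : IsPrimitiveRoot (asmZeta p) p := asmZeta_spec p
  have hζ : IsPrimitiveRoot (padicEmbedding ((v.1 : Nat.Primes) : ℕ) (asmZeta p)) p :=
    hζ₀.map_of_injective (padicEmbedding ((v.1 : Nat.Primes) : ℕ)).toRingHom.injective
  have hV : (lbLevels ((v.1 : Nat.Primes) : ℕ)).IsOpen
      (⊤ : Subgroup (lbGal ((v.1 : Nat.Primes) : ℕ))) := by
    obtain ⟨U, hU⟩ := (lbLevels ((v.1 : Nat.Primes) : ℕ)).exists_level
    exact ⟨U, hU, le_top⟩
  have hρ := lg_isMuRep_cycloChar_prime v.1 p (asmZeta p) hζ₀.pow_eq_one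
    (⊤ : Subgroup (lbGal ((v.1 : Nat.Primes) : ℕ)))
  have h1 := lbInv_injective hζ (⊤ : Subgroup (lbGal ((v.1 : Nat.Primes) : ℕ))) hV _ hρ
  have h2 := s56twl_smH2res_top_injective ((locSysS S).lev v)
    ((locSysS S).rep (chiRep (cycloChar p)) v)
  unfold asmInvQAt
  exact (h1.comp (smH2congr (asm_lev_top_eq S v) _).injective).comp h2

end InvInjQ

/-! ### `ρ̄` restricted to `Gal(ℚ̄_q/ℚ_q)` -/

section Rho

variable {k : Type} [Field k] (ρbar : ResidualGaloisRep k) (q : ℕ) [Fact q.Prime]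

/-- `ρ̄` restricted to `Gal(ℚ̄_q/ℚ_q)` -/
noncomputable def s56twlRho : Representation k (lbGal q) ρbar.V :=
  (ρbar.ρ : Representation k GQ ρbar.V).comp (localGaloisToGlobal q)

theorem s56twlRho_apply (σ : lbGal q) : s56twlRho ρbar q σ = ρbar.ρ (localGaloisToGlobal q σ) := rfl

theorem s56twl_rho_isSmooth : IsSmoothRep (lbLevels q) (s56twlRho ρbar q) := by
  have h1 : IsSmoothRep levelsAll (ρbar.ρ : Representation k GQ ρbar.V) := by
    obtain ⟨L, hL, h⟩ := ρbar.factorsThroughFiniteLevel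
    intro v
    refine ⟨L.fixingSubgroup, ⟨L, hL, rfl⟩, fun s hs => ?_⟩
    rw [h s (fun x hx => (IntermediateField.mem_fixingSubgroup_iff _ _).1 hs x hx)]
    rfl
  have h2 := IsSmoothRep.comp_hom (Levels.continuous_comap levelsAll (localGaloisToGlobal q)) h1
  rw [lg_levelsAll_comap_localGaloisToGlobal] at h2
  exact h2

theorem s56twl_rho_inertia (hur : ρbar.IsUnramifiedAt q) (σ : lbGal q) (hσ : σ ∈ locInertia q) :
    s56twlRho ρbar q σ = 1 :=
  hur (padicPlace q) (padicPlace_liesOverPrime q) _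
    ((localGaloisToGlobal_mem_inertiaSubgroupIn_iff q σ).2 hσ)

variable (p : ℕ) [Fact p.Prime] [CharP k p] [Finite k]

/-- at a Taylor–Wiles prime the image of `Gal(ℚ̄_q/ℚ_q)` under `ρ̄` has order prime to `p` -/
theorem s56twl_exists_level (hur : ρbar.IsUnramifiedAt q)
    (htw : ∀ P : ValuationSubring (AlgebraicClosure ℚ), P.LiesOverPrime q →
      ∀ φ : AlgebraicClosure ℚ ≃ₐ[ℚ] AlgebraicClosure ℚ, P.IsFrobeniusAt φ q →
        ∃ α β : k, α ≠ β ∧ LinearMap.charpoly (ρbar.ρ φ) = (X - C α) * (X - C β)) :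
    ∃ U, (lbLevels q).IsLevel U ∧ U.Normal ∧ (∀ s ∈ U, s56twlRho ρbar q s = 1) ∧ ¬ p ∣ U.index := by
  obtain ⟨φ, hφ⟩ := loc_exists_isFrobLift q
  obtain ⟨α, β, hαβ, hchar⟩ := htw (padicPlace q) (padicPlace_liesOverPrime q)
    (localGaloisToGlobal q φ) (s56twl_isFrobeniusAt q φ hφ)
  exact loc_tw_prime_to_p q p ρbar.finrank_eq (s56twlRho ρbar q) (s56twl_rho_isSmooth ρbar q)
    (s56twl_rho_inertia ρbar q hur) φ hφ α β hαβ hchar

end Rho

/-! ### `ad⁰ρ̄` restricted to `Gal(ℚ̄_q/ℚ_q)` -/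

section Ad

variable {k : Type} [Field k] [Finite k] (p : ℕ) [Fact p.Prime] [CharP k p]
  (ρbar : ResidualGaloisRep k) (q : ℕ) [Fact q.Prime]

/-- `ad⁰ρ̄` restricted to `Gal(ℚ̄_q/ℚ_q)` -/
noncomputable def s56twlAd : Representation (ZMod p) (lbGal q) (S56Ad0 ρbar) :=
  (s56Ad0 p ρbar).comp (localGaloisToGlobal q)

theorem s56twlAd_val (σ : lbGal q) (f : S56Ad0 ρbar) :
    (s56twlAd p ρbar q σ f).val = s56twlRho ρbar q σ * f.val * s56twlRho ρbar q σ⁻¹ := by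
  rw [s56twlRho_apply, s56twlRho_apply, map_inv]
  rfl

theorem s56twl_rho_inv_mul (σ : lbGal q) : s56twlRho ρbar q σ⁻¹ * s56twlRho ρbar q σ = 1 := by
  rw [← map_mul, inv_mul_cancel, map_one]

theorem s56twl_ad_eq_one {σ : lbGal q} (h : s56twlRho ρbar q σ = 1) : s56twlAd p ρbar q σ = 1 := by
  have h' : s56twlRho ρbar q σ⁻¹ = 1 := by
    have := s56twl_rho_inv_mul ρbar q σ
    rw [h, mul_one] at this
    exact this
  apply LinearMap.ext
  intro f
  apply S56Ad0.ext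
  rw [s56twlAd_val, h, h', one_mul, mul_one]
  rfl

/-- invariants of `ad⁰` commute with `ρ̄(σ)` -/
theorem s56twl_commute_of_mem_smH0 {f : S56Ad0 ρbar} (hf : f ∈ smH0 (s56twlAd p ρbar q))
    (σ : lbGal q) : s56twlRho ρbar q σ * f.val = f.val * s56twlRho ρbar q σ := by
  have h1 : dd0 (s56twlAd p ρbar q) f σ = 0 := by
    have := LinearMap.mem_ker.1 hf
    rw [this]
    rfl
  rw [dd0_apply, sub_eq_zero] at h1
  have h2 : s56twlRho ρbar q σ * f.val * s56twlRho ρbar q σ⁻¹ = f.val := by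
    rw [← s56twlAd_val, h1]
  calc s56twlRho ρbar q σ * f.val
      = s56twlRho ρbar q σ * f.val * (s56twlRho ρbar q σ⁻¹ * s56twlRho ρbar q σ) := by
        rw [s56twl_rho_inv_mul, mul_one]
    _ = (s56twlRho ρbar q σ * f.val * s56twlRho ρbar q σ⁻¹) * s56twlRho ρbar q σ := by
        simp only [mul_assoc]
    _ = f.val * s56twlRho ρbar q σ := by rw [h2]

/-- `#H⁰(ℚ_q, ad⁰ρ̄) ≤ #k` when some `ρ̄(φ)` has distinct eigenvalues in `k` -/
theorem s56twl_card_h0_le (φ : lbGal q) (α β : k) (hαβ : α ≠ β)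
    (hchar : LinearMap.charpoly (s56twlRho ρbar q φ) = (X - C α) * (X - C β)) :
    Nat.card ↥(smH0 (s56twlAd p ρbar q)) ≤ Nat.card k := by
  classical
  by_cases h : ∃ x₀ : ↥(smH0 (s56twlAd p ρbar q)), x₀ ≠ 0
  · obtain ⟨x₀, hx₀⟩ := h
    have hx₀v : (x₀ : S56Ad0 ρbar).val ≠ 0 := by
      intro h0
      apply hx₀
      apply Subtype.ext
      apply S56Ad0.ext
      rw [h0]
      rfl
    have key : ∀ f : ↥(smH0 (s56twlAd p ρbar q)),
        ∃ t : k, (f : S56Ad0 ρbar).val = t • (x₀ : S56Ad0 ρbar).val := fun f =>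
      ad0_centralizer_proportional ρbar.finrank_eq (s56twlRho ρbar q φ) α β hαβ hchar
        (x₀ : S56Ad0 ρbar).val (f : S56Ad0 ρbar).val (x₀ : S56Ad0 ρbar).trace_val
        (f : S56Ad0 ρbar).trace_val (s56twl_commute_of_mem_smH0 p ρbar q x₀.2 φ)
        (s56twl_commute_of_mem_smH0 p ρbar q f.2 φ) hx₀v
    choose t ht using key
    apply Nat.card_le_card_of_injective t
    intro f g hfg
    apply Subtype.ext
    apply S56Ad0.ext
    rw [ht f, ht g, hfg]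
  · simp only [ne_eq, not_exists, not_not] at h
    haveI : Subsingleton ↥(smH0 (s56twlAd p ρbar q)) := ⟨fun a b => by rw [h a, h b]⟩
    rw [Nat.card_unique]
    exact Nat.card_pos

/-- `#H¹(ℚ_q, ad⁰ρ̄) ≤ (#H⁰(ℚ_q, ad⁰ρ̄))²` at a Taylor–Wiles prime -/
theorem s56twl_card_h1_le (hqp : q ≠ p) (hq1 : p ∣ q - 1)
    (hsm : IsSmoothRep (lbLevels q) (s56twlAd p ρbar q))
    (hprime : ∃ U, (lbLevels q).IsLevel U ∧ U.Normal ∧ (∀ s ∈ U, s56twlAd p ρbar q s = 1) ∧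
      ¬ p ∣ U.index) :
    Nat.card (smH1 (lbLevels q) (s56twlAd p ρbar q)) ≤
      Nat.card ↥(smH0 (s56twlAd p ρbar q)) * Nat.card ↥(smH0 (s56twlAd p ρbar q)) := by
  obtain ⟨hfin, hle⟩ := loc_tw_finrank_le q p hqp hq1 (s56twlAd p ρbar q) hsm hprime
  haveI := hfin
  rw [Module.natCard_eq_pow_finrank (K := ZMod p) (V := smH1 (lbLevels q) (s56twlAd p ρbar q)),
    Module.natCard_eq_pow_finrank (K := ZMod p) (V := ↥(smH0 (s56twlAd p ρbar q))), ← pow_add,
    ← two_mul]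
  exact Nat.pow_le_pow_right (Nat.card_pos) hle

end Ad

/-! ### the cyclotomic character on `Gal(ℚ̄_q/ℚ_q)` -/

section Chi

variable (q : ℕ) [Fact q.Prime] (p : ℕ) [Fact p.Prime]

/-- the mod `p` cyclotomic character restricted to `Gal(ℚ̄_q/ℚ_q)` -/
noncomputable def s56twlChi : lbGal q →* (ZMod p)ˣ := (cycloChar p).comp (localGaloisToGlobal q)

theorem s56twl_chi_spec (g : lbGal q) (a : ℕ)
    (h : ∀ ζ : PadicAlgCl q, ζ ^ p = 1 → g ζ = ζ ^ a) :
    ((s56twlChi q p g : (ZMod p)ˣ) : ZMod p) = (a : ZMod p) := by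
  have hζ₀ : IsPrimitiveRoot (asmZeta p) p := asmZeta_spec p
  have hζ : IsPrimitiveRoot (padicEmbedding q (asmZeta p)) p :=
    hζ₀.map_of_injective (padicEmbedding q).toRingHom.injective
  have h1 := h _ hζ.pow_eq_one
  have h2 := sb_cycloChar_spec (localGaloisToGlobal q g) hζ₀.pow_eq_one
  have h3 := congrArg (padicEmbedding q) h2
  rw [padicEmbedding_localGaloisToGlobal, map_pow, h1, ← lbk_pow_val_natCast hζ a] at h3
  exact (lbk_pow_val_inj hζ h3).symm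

/-- for `q ≡ 1 (p)` the cyclotomic character is trivial on `Gal(ℚ̄_q/ℚ_q)` -/
theorem s56twl_chi_eq_one (hqp : q ≠ p) (hq1 : p ∣ q - 1) (g : lbGal q) : s56twlChi q p g = 1 := by
  have hp : p.Prime := Fact.out
  haveI : NeZero p := ⟨hp.ne_zero⟩
  obtain ⟨ζ, hζ, -, hfix⟩ := loctd_exists_zeta q p hqp hq1
  have h1 := s56twl_chi_spec q p g 1 (fun ζ' hζ' => by
    obtain ⟨i, -, rfl⟩ := hζ.eq_pow_of_pow_eq_one hζ'
    rw [map_pow, hfix, pow_one])
  apply Units.ext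
  rw [h1, Nat.cast_one]
  rfl

end Chi

/-! ### the assembly -/

section Aux

variable (q : ℕ) [Fact q.Prime] (p : ℕ) [Fact p.Prime]

/-- C3 for a level structure EQUAL to `lbLevels q` -/
theorem s56twl_nondeg_right_aux (hqp : q ≠ p) (hq1 : p ∣ q - 1) (𝓛 : Levels (lbGal q))
    (h𝓛 : 𝓛 = lbLevels q)
    {V : Type} [AddCommGroup V] [Module (ZMod p) V] [FiniteDimensional (ZMod p) V]
    {W : Type} [AddCommGroup W] [Module (ZMod p) W] [FiniteDimensional (ZMod p) W]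
    (ρV : Representation (ZMod p) (lbGal q) V) (ρW : Representation (ZMod p) (lbGal q) W)
    (χ : lbGal q →* (ZMod p)ˣ)
    (hχ : ∀ (g : lbGal q) (a : ℕ), (∀ ζ : PadicAlgCl q, ζ ^ p = 1 → g ζ = ζ ^ a) →
      ((χ g : (ZMod p)ˣ) : ZMod p) = (a : ZMod p))
    (β : V →ₗ[ZMod p] W →ₗ[ZMod p] ZMod p)
    (P : PairingData 𝓛 ρV ρW (chiRep χ) β)
    (hβl : ∀ v, (∀ w, β v w = 0) → v = 0) (hβr : ∀ w, (∀ v, β v w = 0) → w = 0)
    (hprimeV : ∃ U, (lbLevels q).IsLevel U ∧ U.Normal ∧ (∀ s ∈ U, ρV s = 1) ∧ ¬ p ∣ U.index)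
    (hprimeW : ∃ U, (lbLevels q).IsLevel U ∧ U.Normal ∧ (∀ s ∈ U, ρW s = 1) ∧ ¬ p ∣ U.index)
    (y : smH1 𝓛 ρW) (hy : ∀ x : smH1 𝓛 ρV, cupH11 P x y = 0) : y = 0 := by
  subst h𝓛
  exact loc_tw_cupH11_nondeg_right q p hqp hq1 ρV ρW χ hχ β P hβl hβr hprimeV hprimeW y hy

end Aux

section Leaf

variable {𝒪 : Type} [CommRing 𝒪] [IsDomain 𝒪] [IsDiscreteValuationRing 𝒪]
  [IsAdicComplete (maximalIdeal 𝒪) 𝒪] [Finite (ResidueField 𝒪)]
  (p : ℕ) [Fact p.Prime] [CharP (ResidueField 𝒪) p]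
  (ρbar : ResidualGaloisRep (ResidueField 𝒪))

/-- **leaf TWL.** local facts at a Taylor-Wiles prime `q = v ∈ S'`, for a trace with the standard
local components: size of `H¹(ℚ_q, ad⁰ρ̄)` and right non-degeneracy of the local pairing. -/
theorem s56_tw_local (hp2 : p ≠ 2) (S : Finset ℕ) (n : ℕ) (S' : Finset Nat.Primes)
    (hpS' : pPrime p ∈ S') (hM : IsSmoothRep (levelsS S') (s56Ad0Rep p ρbar).ρ)
    (tr : smHc3 (locSysS S') (chiRep (cycloChar p)) →ₗ[ZMod p] ZMod p)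
    (htr : ∀ b, trLoc (locSysS S') tr b = asmInvQ p S' b)
    (v : ↥S') (hv : S56IsTW p ρbar S n ((v.1 : Nat.Primes) : ℕ))
    (hur : ρbar.IsUnramifiedAt ((v.1 : Nat.Primes) : ℕ)) :
    Nat.card (smH1 ((locSysS S').lev v) ((locSysS S').rep (s56Ad0 p ρbar) v)) ≤
        Nat.card (ResidueField 𝒪) *
          Nat.card ↥(smH0 ((locSysS S').rep (s56Ad0 p ρbar) v)) ∧
    ∀ y : ∀ w, smH1 ((locSysS S').lev w)
        ((locSysS S').rep ((s56Ad0Rep p ρbar).dualTwist (cycloChar p)).ρ w),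
      (∀ l : ∀ w, smH1 ((locSysS S').lev w) ((locSysS S').rep (s56Ad0Rep p ρbar).ρ w),
        (∀ w, w ≠ v → l w = 0) →
        pair11 (locSysS S') (perfPair_frozen S' hpS' (s56Ad0Rep p ρbar) hM).pd tr l y = 0) →
      y v = 0 := by
  haveI : Fact ((v.1 : Nat.Primes) : ℕ).Prime := ⟨v.1.2⟩
  have hp : p.Prime := Fact.out
  obtain ⟨⟨hqprime, hqS, hdvd⟩, htw⟩ := hv
  have hq1 : p ∣ ((v.1 : Nat.Primes) : ℕ) - 1 :=
    dvd_trans (dvd_pow_self p (Nat.succ_ne_zero n)) hdvd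
  have hqp : ((v.1 : Nat.Primes) : ℕ) ≠ p := by
    intro h
    rw [h] at hq1
    have h1lt := hp.one_lt
    have := Nat.le_of_dvd (Nat.sub_pos_of_lt hp.one_lt) hq1
    omega
  obtain ⟨U, hU, hUn, hUtriv, hUidx⟩ :=
    s56twl_exists_level ρbar ((v.1 : Nat.Primes) : ℕ) p hur htw
  have hprimeV : ∃ U, (lbLevels ((v.1 : Nat.Primes) : ℕ)).IsLevel U ∧ U.Normal ∧
      (∀ s ∈ U, s56twlAd p ρbar ((v.1 : Nat.Primes) : ℕ) s = 1) ∧ ¬ p ∣ U.index :=
    ⟨U, hU, hUn, fun s hs => s56twl_ad_eq_one p ρbar _ (hUtriv s hs), hUidx⟩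
  have hlev := lg_locSysS_lev S' v
  have hsmV : IsSmoothRep (lbLevels ((v.1 : Nat.Primes) : ℕ))
      (s56twlAd p ρbar ((v.1 : Nat.Primes) : ℕ)) := by
    have h1 := IsSmoothRep.comp_hom ((locSysS S').cont v) hM
    rw [hlev] at h1
    exact h1
  obtain ⟨φ, hφ⟩ := loc_exists_isFrobLift ((v.1 : Nat.Primes) : ℕ)
  obtain ⟨α, β, hαβ, hchar⟩ := htw (padicPlace ((v.1 : Nat.Primes) : ℕ))
    (padicPlace_liesOverPrime _) _ (s56twl_isFrobeniusAt _ φ hφ)
  refine ⟨?_, ?_⟩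
  · have h0 := s56twl_card_h0_le p ρbar ((v.1 : Nat.Primes) : ℕ) φ α β hαβ hchar
    have h1 := s56twl_card_h1_le p ρbar ((v.1 : Nat.Primes) : ℕ) hqp hq1 hsmV hprimeV
    rw [hlev]
    exact h1.trans (Nat.mul_le_mul_right _ h0)
  · intro y hy
    have hPP := perfPair_frozen S' hpS' (s56Ad0Rep p ρbar) hM
    have hcup : ∀ x : smH1 ((locSysS S').lev v) ((locSysS S').rep (s56Ad0Rep p ρbar).ρ v),
        cupH11 (hPP.pd.loc (locSysS S') v) x (y v) = 0 := by
      intro x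
      classical
      have hsingle : ∀ w, w ≠ v →
          (Pi.single (M := fun w => smH1 ((locSysS S').lev w)
            ((locSysS S').rep (s56Ad0Rep p ρbar).ρ w)) v x) w = 0 :=
        fun w hw => Pi.single_eq_of_ne (M := fun w => smH1 ((locSysS S').lev w)
            ((locSysS S').rep (s56Ad0Rep p ρbar).ρ w)) hw x
      have h1 := hy _ hsingle
      have e : pair11 (locSysS S') hPP.pd tr (Pi.single v x) y =
          trLoc (locSysS S') tr (fun w => cupH11 (hPP.pd.loc (locSysS S') w)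
            ((Pi.single v x : ∀ w, smH1 ((locSysS S').lev w)
              ((locSysS S').rep (s56Ad0Rep p ρbar).ρ w)) w) (y w)) := rfl
      rw [e, htr, asmInvQ_apply, Finset.sum_eq_single v] at h1
      · rw [Pi.single_eq_same] at h1
        exact s56twl_asmInvQAt_injective S' v (by rw [h1, map_zero])
      · intro w _ hw
        rw [Pi.single_eq_of_ne hw, map_zero, LinearMap.zero_apply, map_zero]
      · intro h
        exact absurd (Finset.mem_univ v) h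
    have hprimeW : ∃ U, (lbLevels ((v.1 : Nat.Primes) : ℕ)).IsLevel U ∧ U.Normal ∧
        (∀ s ∈ U, (((s56Ad0Rep p ρbar).dualTwist (cycloChar p)).ρ.comp
          (localGaloisToGlobal ((v.1 : Nat.Primes) : ℕ))) s = 1) ∧ ¬ p ∣ U.index := by
      refine ⟨U, hU, hUn, fun s hs => ?_, hUidx⟩
      have h1 : cycloChar p (localGaloisToGlobal ((v.1 : Nat.Primes) : ℕ) s) = 1 :=
        s56twl_chi_eq_one _ p hqp hq1 s
      have h2 : (s56Ad0Rep p ρbar).ρ (localGaloisToGlobal ((v.1 : Nat.Primes) : ℕ) s)⁻¹ = 1 := by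
        have := s56twl_ad_eq_one p ρbar _ (hUtriv s⁻¹ (U.inv_mem hs))
        rw [← map_inv]
        exact this
      apply LinearMap.ext
      intro f
      show ((s56Ad0Rep p ρbar).dualTwist (cycloChar p)).ρ
        (localGaloisToGlobal ((v.1 : Nat.Primes) : ℕ) s) f = f
      rw [Rep.dualTwist_ρ_apply, h1, h2, Units.val_one, one_smul]
      rfl
    exact s56twl_nondeg_right_aux ((v.1 : Nat.Primes) : ℕ) p hqp hq1 ((locSysS S').lev v) hlev
      (s56twlAd p ρbar ((v.1 : Nat.Primes) : ℕ))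
      (((s56Ad0Rep p ρbar).dualTwist (cycloChar p)).ρ.comp
        (localGaloisToGlobal ((v.1 : Nat.Primes) : ℕ)))
      (s56twlChi ((v.1 : Nat.Primes) : ℕ) p) (s56twl_chi_spec _ p)
      (evalPairing (s56Ad0Rep p ρbar) (cycloChar p)) (hPP.pd.loc (locSysS S') v)
      hPP.nondeg_left hPP.nondeg_right hprimeV hprimeW (y v) hcup

end Leaf

end Fermat.Agent.S56
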