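import Fermat.Agent.S56.Top.WGDefs

/-!
# S56 / TOP, leaf T3 = WG (row 350): the FORMAL Wiles-Greenberg inequality in the S55 Top language

`s56_wiles_greenberg` (statement VERBATIM from `Top/WGSpec.lean`; definitions in `Top/WGDefs.lean`):
`dim Sel + h¹(W) + Σ_v h⁰(Γ_v, V) ≤ dim SelDual + h²(W) + h⁰(V) + Σ_v dim L v`.

Proof (helpers prefixed `s56wg_`; linear algebra over a field):
* (A) `dim Sel + h¹(W) ≤ dim Ш¹(V) + dim L + dim SelDual` (`s56wg_sel_le`): `loc : Sel → L` has kernel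
  in `Ш¹(V)` and image in the kernel of `Φ : L → H¹(W)^∨`, `Φ l y = ⟨l, loc y⟩` (reciprocity:
  `⟨loc x, loc y⟩ = θ²(∂ loc x) y = 0`), and `SelDual` is the coannihilator of `im Φ`;
* (C) `dim Ш¹(V) ≤ dim Ш²(W)` (`exists_sha_pairing`);
* (D) `dim P²(W) + dim Ш²(W) ≤ h²(W) + h⁰(V)` (`s56wg_p2_le`: `im loc² = ker ∂³`, `θ³_W` injective);
* (E) `Σ_v h⁰(Γ_v, V) = dim P⁰(V) ≤ dim P²(W)` (`hloc`).
-/

set_option autoImplicit false
set_option linter.unusedSectionVars false

noncomputable section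

namespace Fermat.Agent.S56

open Fermat.Agent.S55 Module

/-! ## linear algebra -/

section LinAlg

variable {k : Type*} [Field k]

/-- a left non-degenerate pairing into a finite-dimensional space bounds the dimension -/
theorem s56wg_finrank_le_of_nondeg {M N : Type*} [AddCommGroup M] [Module k M] [AddCommGroup N]
    [Module k N] [FiniteDimensional k N] (B : M →ₗ[k] N →ₗ[k] k)
    (hB : ∀ m, (∀ n, B m n = 0) → m = 0) : finrank k M ≤ finrank k N := by
  have hinj : Function.Injective B := by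
    rw [← LinearMap.ker_eq_bot, LinearMap.ker_eq_bot']
    intro m hm
    exact hB m fun n => by rw [hm, LinearMap.zero_apply]
  have h1 := LinearMap.finrank_le_finrank_of_injective (f := (B : M →ₗ[k] Module.Dual k N)) hinj
  rwa [Subspace.dual_finrank_eq] at h1

/-- the same, giving finite-dimensionality too -/
theorem s56wg_finite_of_nondeg {M N : Type*} [AddCommGroup M] [Module k M] [AddCommGroup N]
    [Module k N] [FiniteDimensional k N] (B : M →ₗ[k] N →ₗ[k] k)
    (hB : ∀ m, (∀ n, B m n = 0) → m = 0) : FiniteDimensional k M := by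
  have hinj : Function.Injective B := by
    rw [← LinearMap.ker_eq_bot, LinearMap.ker_eq_bot']
    intro m hm
    exact hB m fun n => by rw [hm, LinearMap.zero_apply]
  exact FiniteDimensional.of_injective (B : M →ₗ[k] Module.Dual k N) hinj

/-- (A) the Selmer count -/
theorem s56wg_sel_le {X Pp Y : Type*} [AddCommGroup X] [Module k X] [AddCommGroup Pp] [Module k Pp]
    [AddCommGroup Y] [Module k Y] [FiniteDimensional k X] [FiniteDimensional k Y]
    (loc : X →ₗ[k] Pp) (Φ : Pp →ₗ[k] Module.Dual k Y) (hΦ : ∀ x, Φ (loc x) = 0)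
    (L : Submodule k Pp) [FiniteDimensional k ↥L]
    (SelD : Submodule k Y) (hSelD : ∀ y, y ∈ SelD ↔ ∀ l ∈ L, Φ l y = 0) :
    finrank k ↥(L.comap loc) + finrank k Y ≤
      finrank k ↥(LinearMap.ker loc) + finrank k ↥L + finrank k ↥SelD := by
  -- `Φ` on `L`
  set ΦL : ↥L →ₗ[k] Module.Dual k Y := Φ.comp L.subtype with hΦL
  -- `loc : Sel → L`
  set f : ↥(L.comap loc) →ₗ[k] ↥L :=
    (loc.comp (L.comap loc).subtype).codRestrict L (fun x => x.2) with hf
  have hrange : LinearMap.range f ≤ LinearMap.ker ΦL := by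
    rintro _ ⟨x, rfl⟩
    rw [LinearMap.mem_ker]
    exact hΦ x.1
  -- the kernel of `f` injects into `ker loc`
  have hker : finrank k ↥(LinearMap.ker f) ≤ finrank k ↥(LinearMap.ker loc) := by
    let g : ↥(LinearMap.ker f) →ₗ[k] ↥(LinearMap.ker loc) :=
      ((L.comap loc).subtype.comp (LinearMap.ker f).subtype).codRestrict (LinearMap.ker loc)
        (fun x => by
          rw [LinearMap.mem_ker]
          have hx : f x.1 = 0 := LinearMap.mem_ker.1 x.2
          exact congrArg Subtype.val hx)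
    refine LinearMap.finrank_le_finrank_of_injective (f := g) ?_
    intro a b hab
    have h1 : ((g a : ↥(LinearMap.ker loc)) : X) = (g b : ↥(LinearMap.ker loc)) :=
      congrArg Subtype.val hab
    exact Subtype.ext (Subtype.ext h1)
  have h1 := LinearMap.finrank_range_add_finrank_ker f
  have h2 := LinearMap.finrank_range_add_finrank_ker ΦL
  have h3 : finrank k ↥(LinearMap.range f) ≤ finrank k ↥(LinearMap.ker ΦL) :=
    Submodule.finrank_mono hrange
  -- `SelD` is the coannihilator of the range of `ΦL`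
  have h4 : SelD = (LinearMap.range ΦL).dualCoannihilator := by
    ext y
    rw [hSelD, Submodule.mem_dualCoannihilator]
    constructor
    · rintro h _ ⟨l, rfl⟩
      exact h l.1 l.2
    · intro h l hl
      exact h _ ⟨⟨l, hl⟩, rfl⟩
  have h5 := Subspace.finrank_add_finrank_dualCoannihilator_eq (LinearMap.range ΦL)
  rw [← h4] at h5
  omega

/-- (D) `dim P² + dim ker loc² ≤ h² + h⁰` -/
theorem s56wg_p2_le {H2 P2 Hc3 H0 : Type*} [AddCommGroup H2] [Module k H2] [AddCommGroup P2]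
    [Module k P2] [AddCommGroup Hc3] [Module k Hc3] [AddCommGroup H0] [Module k H0]
    [FiniteDimensional k H2] [FiniteDimensional k P2] [FiniteDimensional k H0]
    (loc : H2 →ₗ[k] P2) (bd : P2 →ₗ[k] Hc3) (hex : Function.Exact loc bd)
    (θ : Hc3 →ₗ[k] Module.Dual k H0) (hθ : Function.Injective θ) :
    finrank k P2 + finrank k ↥(LinearMap.ker loc) ≤ finrank k H2 + finrank k H0 := by
  set g : P2 →ₗ[k] Module.Dual k H0 := θ.comp bd with hg
  have hker : LinearMap.ker g = LinearMap.range loc := by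
    ext b
    rw [LinearMap.mem_ker, hg, LinearMap.comp_apply, ← map_zero θ, hθ.eq_iff]
    exact hex b
  have h1 := LinearMap.finrank_range_add_finrank_ker g
  have h2 := LinearMap.finrank_range_add_finrank_ker loc
  have h3 : finrank k ↥(LinearMap.range g) ≤ finrank k H0 := by
    have := Submodule.finrank_le (LinearMap.range g)
    rwa [Subspace.dual_finrank_eq] at this
  rw [hker] at h1
  omega

/-- the product of submodules is the product of the factors -/
def s56wgPiEquiv {ι : Type*} {M : ι → Type*} [∀ i, AddCommGroup (M i)] [∀ i, Module k (M i)]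
    (L : ∀ i, Submodule k (M i)) : ↥(Submodule.pi Set.univ L) ≃ₗ[k] ∀ i, ↥(L i) where
  toFun x i := ⟨x.1 i, x.2 i (Set.mem_univ i)⟩
  map_add' _ _ := rfl
  map_smul' _ _ := rfl
  invFun y := ⟨fun i => (y i).1, fun i _ => (y i).2⟩
  left_inv _ := rfl
  right_inv _ := rfl

theorem s56wg_finrank_pi {ι : Type*} [Fintype ι] {M : ι → Type*} [∀ i, AddCommGroup (M i)]
    [∀ i, Module k (M i)] [∀ i, FiniteDimensional k (M i)] (L : ∀ i, Submodule k (M i)) :
    finrank k ↥(Submodule.pi Set.univ L) = ∑ i, finrank k ↥(L i) := by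
  rw [(s56wgPiEquiv L).finrank_eq, Module.finrank_pi_fintype]

end LinAlg

/-! ## the inequality (the definitions `s56Sel`, `s56SelDual` live in `Top/WGDefs.lean`) -/

universe u

variable {k : Type u} [Field k] {G : Type u} [Group G] {𝓛 : Levels G}
  {ι : Type} [Fintype ι] {Γ : ι → Type} [∀ v, Group (Γ v)] (D : LocSys 𝓛 ι Γ)
  {V W Z : Type u} [AddCommGroup V] [Module k V] [AddCommGroup W] [Module k W]
  [AddCommGroup Z] [Module k Z]
  {ρV : Representation k G V} {ρW : Representation k G W} {ρZ : Representation k G Z}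
  {β : V →ₗ[k] W →ₗ[k] Z}

section WG

variable (χ : G →* kˣ) {β' : V →ₗ[k] W →ₗ[k] k}

omit [Fintype ι] in
/-- surjectivity of `θ¹` does not depend on the way the pairing is written -/
theorem s56wg_theta1_surj_congr {β₁ β₂ : V →ₗ[k] W →ₗ[k] Z} (h : β₁ = β₂)
    (P₁ : PairingData 𝓛 ρV ρW ρZ β₁) (P₂ : PairingData 𝓛 ρV ρW ρZ β₂) (tr : smHc3 D ρZ →ₗ[k] k)
    (hs : Function.Surjective (theta1 D P₁ tr)) : Function.Surjective (theta1 D P₂ tr) := by
  subst h
  exact hs

omit [Fintype ι] in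
/-- reciprocity: `⟨loc x, loc y⟩ = 0` -/
theorem s56wg_pair11_loc (P : PairingData 𝓛 ρV ρW ρZ β) (tr : smHc3 D ρZ →ₗ[k] k)
    (x : smH1 𝓛 ρV) (y : smH1 𝓛 ρW) :
    pair11 D P tr (locP1 D (ρ := ρV) x) (locP1 D (ρ := ρW) y) = 0 := by
  rw [← theta2_bdry2 D P tr, (exact_locP1_bdry2 D P.smV (locP1 D (ρ := ρV) x)).2 ⟨x, rfl⟩,
    map_zero, LinearMap.zero_apply]

set_option maxSynthPendingDepth 3 in
/-- **T3: the formal Wiles-Greenberg inequality.** -/
theorem s56_wiles_greenberg (hP : PerfPair 𝓛 χ ρV ρW β') (hP' : PerfPair 𝓛 χ ρW ρV β'.flip)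
    (tr : smHc3 D (chiRep χ) →ₗ[k] k)
    (hpkg : DualityPkg D hP.pd tr) (hpkg' : DualityPkg D hP'.pd tr)
    (hloc : ∀ b : ∀ v, ↥(smH0 (D.rep ρV v)), (∀ c, pair02 D hP.pd tr b c = 0) → b = 0)
    (hf1V : FiniteDimensional k (smH1 𝓛 ρV)) (hf1W : FiniteDimensional k (smH1 𝓛 ρW))
    (hf2W : FiniteDimensional k (smH2 𝓛 ρW))
    (hfP1 : ∀ v, FiniteDimensional k (smH1 (D.lev v) (D.rep ρV v)))
    (hfP2 : ∀ v, FiniteDimensional k (smH2 (D.lev v) (D.rep ρW v)))
    (L : ∀ v, Submodule k (smH1 (D.lev v) (D.rep ρV v))) :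
    Module.finrank k ↥(s56Sel D ρV L) + Module.finrank k (smH1 𝓛 ρW) +
        ∑ v, Module.finrank k ↥(smH0 (D.rep ρV v)) ≤
      Module.finrank k ↥(s56SelDual D hP.pd tr L) + Module.finrank k (smH2 𝓛 ρW) +
        Module.finrank k ↥(smH0 ρV) + ∑ v, Module.finrank k ↥(L v) := by
  classical
  have hfV := hP.finV
  have hfW := hP.finW
  -- (A) the Selmer count
  have hA := s56wg_sel_le (k := k) (locP1 D (ρ := ρV))
    ((pair11 D hP.pd tr).compl₂ (locP1 D (ρ := ρW)))
    (fun x => LinearMap.ext fun y => s56wg_pair11_loc D hP.pd tr x y)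
    (Submodule.pi Set.univ L) (s56SelDual D hP.pd tr L)
    (fun y => by
      rw [mem_s56SelDual]
      constructor
      · intro h l hl
        exact h l fun v => (Submodule.mem_pi.1 hl) v (Set.mem_univ v)
      · intro h l hl
        exact h l (Submodule.mem_pi.2 fun v _ => hl v))
  rw [s56wg_finrank_pi] at hA
  -- (C) `dim Ш¹(V) ≤ dim Ш²(W)`
  have hflip : (β'.flip).flip = β' := LinearMap.flip_flip β'
  have P'' : PairingData 𝓛 ρV ρW (chiRep χ) (β'.flip).flip := by
    rw [hflip]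
    exact hP.pd
  obtain ⟨B, hB1, -⟩ := exists_sha_pairing D hP'.pd P'' tr hpkg'.surj2
    (s56wg_theta1_surj_congr D hflip.symm hP.pd P'' tr hpkg.surj1)
  have hC : finrank k ↥(LinearMap.ker (locP1 D (ρ := ρV))) ≤
      finrank k ↥(LinearMap.ker (locP2 D (ρ := ρW))) := s56wg_finrank_le_of_nondeg B hB1
  -- (D) `dim P²(W) + dim Ш²(W) ≤ h²(W) + h⁰(V)`
  have hD := s56wg_p2_le (k := k) (locP2 D (ρ := ρW)) (bdry3 D (ρ := ρW))
    (exact_locP2_bdry3 D hP.pd.smW) (theta3 D hP'.pd tr) hpkg'.inj3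
  -- (E) `Σ_v h⁰(Γ_v, V) ≤ dim P²(W)`
  have hE : finrank k (∀ v, ↥(smH0 (D.rep ρV v))) ≤
      finrank k (∀ v, smH2 (D.lev v) (D.rep ρW v)) :=
    s56wg_finrank_le_of_nondeg (pair02 D hP.pd tr) hloc
  rw [Module.finrank_pi_fintype] at hE
  show finrank k ↥((Submodule.pi Set.univ L).comap (locP1 D (ρ := ρV))) + _ + _ ≤ _
  omega

end WG

end Fermat.Agent.S56
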