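import Fermat.Agent.S56.Top.Defs
import Fermat.Agent.S55.CoreSpec

/-!
# S56 / TOP: THE TOP-LEVEL SPEC (statements with `sorry`; each `theorem` below is ONE leaf package;
the definitions are in `Top/Defs.lean`, `Top/WGDefs.lean`, `Top/AdDefs.lean`; leaves already DONE are
removed from this file and imported by `Top/Main.lean` directly: INF = `Top/Inf.lean` (helper13))

Notation: `k = ResidueField 𝒪`, `M = ad⁰ρ̄ = s56Ad0Rep p ρbar : Rep (ZMod p) GQ`,
`M* = M.dualTwist (cycloChar p)`; ALL cohomology is over `ZMod p` in the S55 Top language; `k` enters
only through `Nat.card k`.  `S' = s56Primes (Smin ∪ Q)`.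

* `S56LocCond`, `s56LocSub`, `s56SelQ` : local conditions as families of submodules of cocycle
  FUNCTIONS on the local Galois groups (independent of `S'`), and the Selmer group they cut out.
* leaf BASE  `s56_core_base`        : S55's duality package for ALL smooth finite `M`, with the
                                      EXPLICIT local traces `trLoc = asmInvQ` and `hloc`.
* leaf EC    `s56_global_euler_char`: Tate's global Euler characteristic over `ℚ` (+ finiteness).
* leaf FIN   `s56_local_finite`     : finiteness of local smooth cohomology.
* leaf T24o / T24f `s56_dict_ord`, `s56_dict_flat` : the local conditions `𝒵`, their size bounds, and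
              the injection `Hom_𝒪(DQ.R, k[ε]) ↪ Sel(𝒵)` (cocycle dictionary).
* leaf TWL   `s56_tw_local`         : at a TW prime: `#H¹(ℚ_q, M) ≤ #k · #H⁰(ℚ_q, M)` and the local
                                      pairing `H¹(ℚ_q, M) × H¹(ℚ_q, M*)` has trivial right kernel.
* leaf INF   `s56_isLC_of_locally_trivial` : a cocycle smooth for `S₂`, locally a coboundary at the
                                      primes of `S₂ \ S₁`, coefficients smooth for `S₁`, is smooth for `S₁`.
* leaf H0    `s56_ad_h0`, `s56_adDual_h0`, `s56_adDual_conj` : `H⁰(ℚ, M) = 0`, `H⁰(ℚ, M*) = 0`,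
                                      `dim M* - dim (M*)^c = [k : 𝔽_p]`.
* leaf T5    `s56_exists_tw_primes` : TW primes killing the whole `H¹(G_Smin, M*)`.
* leaf T1    (helper12, `Tan/Generators.lean`) in cardinality form: `s56_surjective_of_card_le`.
* T6         `s56_main_ord`, `s56_main_flat` : the two halves of the frozen statement (assembly).
-/

set_option autoImplicit false
set_option linter.unusedVariables false
set_option linter.unusedSectionVars false

noncomputable section

namespace Fermat.Agent.S56

open Fermat.Agent.S55 ExtCitation IsLocalRing Polynomial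

/-! ## leaf BASE: the S55 duality package with explicit local traces -/

section Base

variable {p : ℕ} [Fact p.Prime]

-- leaf EC `s56_global_euler_char` : `Ec/Main.lean` `ecg_global_euler_char` (helper18 EC-DEV + helper9 GEC + helper2 EU)

end Base

/-! ## the S56 setting -/

section Main

variable {𝒪 : Type} [CommRing 𝒪] [IsDomain 𝒪] [IsDiscreteValuationRing 𝒪]
  [IsAdicComplete (maximalIdeal 𝒪) 𝒪] [Finite (ResidueField 𝒪)]
  (p : ℕ) [Fact p.Prime] [CharP (ResidueField 𝒪) p]
  (ρbar : ResidualGaloisRep (ResidueField 𝒪))

/-! ### the dictionary (T24) -/

-- leaf T24o `s56_dict_ord` : `Dict/Main.lean` (helper26 + helper12, helper14, helper15, helper22)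

-- leaf T24f `s56_dict_flat` : `Dict/Flat.lean` (helper25 + FLAT crew: helper2, helper10, helper12, helper15,
-- helper16, helper24, helper29 ...)

/-! ### Taylor-Wiles primes -/

-- leaf TWL `s56_tw_local` : `Top/TwLocal.lean` (helper22 + LOC crew)

-- leaf T5 `s56_exists_tw_primes` : `Tw/Main.lean` (helper20 Tw/* Frob/*; helper7 + TWG crew TW/*)

end Main

end Fermat.Agent.S56
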