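import Fermat.Agent.S56.Top.Spec
import Fermat.Agent.S56.Top.Inf
import Fermat.Agent.S56.Top.WG
import Fermat.Agent.S56.Top.Base
import Fermat.Agent.S56.Top.Fin
import Fermat.Agent.S56.Top.H0
import Fermat.Agent.S56.Tan.Card
import Fermat.Agent.S56.Top.TwLocal
import Fermat.Agent.S56.Dict.Main
import Fermat.Agent.S56.Dict.Flat
import Fermat.Agent.S56.Ec.Main
import Fermat.Agent.S56.Tw.Main

/-!
# S56 / TOP, T6: the assembly `s56_main_of_dict` (proved from the leaves of `Top/Spec.lean`)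
-/

set_option autoImplicit false
set_option linter.style.haveILetI false
set_option linter.unusedVariables false
set_option linter.unusedSectionVars false

noncomputable section

namespace Fermat.Agent.S56

open Fermat.Agent.S55 ExtCitation IsLocalRing Polynomial

/-! ## numerics -/

section Numerics

variable (p : ℕ) [Fact p.Prime]

theorem s56m_card_eq (V : Type*) [AddCommGroup V] [Module (ZMod p) V]
    [FiniteDimensional (ZMod p) V] : Nat.card V = p ^ Module.finrank (ZMod p) V := by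
  rw [Module.natCard_eq_pow_finrank (K := ZMod p), Nat.card_zmod]

theorem s56m_pow_le_iff (a b : ℕ) : p ^ a ≤ p ^ b ↔ a ≤ b :=
  Nat.pow_le_pow_iff_right (Fact.out : p.Prime).one_lt

theorem s56m_pow_inj {a b : ℕ} (h : p ^ a = p ^ b) : a = b :=
  Nat.pow_right_injective (Fact.out : p.Prime).two_le h

/-- a finite field of characteristic `p` has `p ^ d` elements -/
theorem s56m_exists_card_eq (k : Type) [Field k] [Finite k] [CharP k p] :
    ∃ d : ℕ, Nat.card k = p ^ d := by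
  letI : Algebra (ZMod p) k := ZMod.algebra k p
  haveI : Module.Finite (ZMod p) k := Module.Finite.of_finite
  exact ⟨Module.finrank (ZMod p) k, s56m_card_eq p k⟩

theorem s56m_finrank_le_of_card_le (V W : Type*) [AddCommGroup V] [Module (ZMod p) V]
    [FiniteDimensional (ZMod p) V] [AddCommGroup W] [Module (ZMod p) W]
    [FiniteDimensional (ZMod p) W] (d c : ℕ) (hc : c = p ^ d)
    (h : Nat.card V ≤ c * Nat.card W) :
    Module.finrank (ZMod p) V ≤ Module.finrank (ZMod p) W + d := by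
  rw [s56m_card_eq p V, s56m_card_eq p W, hc, ← pow_add, s56m_pow_le_iff] at h
  omega

theorem s56m_sum_ite_le_one {ι : Type*} [Fintype ι] {α : Type*} [DecidableEq α] (f : ι → α)
    (hf : Function.Injective f) (a : α) : (∑ v, if f v = a then 1 else 0) ≤ 1 := by
  classical
  rw [Finset.sum_boole, Nat.cast_id]
  refine Finset.card_le_one.2 (fun x hx y hy => hf ?_)
  rw [(Finset.mem_filter.1 hx).2, (Finset.mem_filter.1 hy).2]

end Numerics

/-! ## local conditions that are everything -/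

section LocTop

variable {k : Type} [Field k] (p : ℕ) [Fact p.Prime] [CharP k p] (ρbar : ResidualGaloisRep k)

theorem s56m_locSub_eq_top (S' : Finset Nat.Primes) (𝒵 : S56LocCond p ρbar) (v : ↥S')
    (h : 𝒵 v.1 = ⊤) : s56LocSub p ρbar S' 𝒵 v = ⊤ := by
  unfold s56LocSub
  rw [h, Submodule.comap_top, Submodule.map_top]
  exact Submodule.range_mkQ _

end LocTop

/-! ## from a vanishing local class to a coboundary on the local Galois group -/

section LocalTriv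

variable {p : ℕ} [Fact p.Prime]

theorem s56m_local_coboundary (S' : Finset Nat.Primes) (M : Rep (ZMod p) GQ)
    (y : ↥(smZ1 (levelsS S') M.ρ)) (v : ↥S')
    (h : locP1 (locSysS S') (ρ := M.ρ) (smH1π (levelsS S') M.ρ y) v = 0) :
    ∃ m : M, ∀ γ : primeLocalGaloisGroup v.1,
      (y : GQ → M) (primeLocalToGlobal v.1 γ) = M.ρ (primeLocalToGlobal v.1 γ) m - m := by
  have h1 : smH1π ((locSysS S').lev v) ((locSysS S').rep M.ρ v)
      (smZ1res M.ρ ((locSysS S').cont v) y) = 0 := h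
  rw [smH1π_eq_zero_iff] at h1
  obtain ⟨m, hm⟩ := h1
  refine ⟨m, fun γ => ?_⟩
  have := congrFun hm γ
  exact this.symm

end LocalTriv

/-! ## finiteness of the local `H²` from the duality package (so that leaf FIN needs only `H¹`) -/

section LocalH2

universe u

variable {k : Type u} [Field k] {G : Type u} [Group G] {𝓛 : Levels G}
  {ι : Type} {Γ : ι → Type} [∀ v, Group (Γ v)] (D : LocSys 𝓛 ι Γ)
  {V W : Type u} [AddCommGroup V] [Module k V] [AddCommGroup W] [Module k W]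
  {ρV : Representation k G V} {ρW : Representation k G W}
  (χ : G →* kˣ) {β'' : W →ₗ[k] V →ₗ[k] k}

set_option maxSynthPendingDepth 3 in
/-- `P²(W) / im H²(W) ↪ H_c³(W) ↪ H⁰(V)^∨`: the local `H²`'s are finite when the global one is -/
theorem s56m_local_h2_finite (hP' : PerfPair 𝓛 χ ρW ρV β'')
    (tr : smHc3 D (chiRep χ) →ₗ[k] k) (hpkg' : DualityPkg D hP'.pd tr)
    (hf2W : FiniteDimensional k (smH2 𝓛 ρW)) (v : ι) :
    FiniteDimensional k (smH2 (D.lev v) (D.rep ρW v)) := by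
  classical
  haveI := hP'.finW
  haveI hc3 : Module.Finite k (smHc3 D ρW) :=
    Module.Finite.of_injective (theta3 D hP'.pd tr) hpkg'.inj3
  have hex := exact_locP2_bdry3 D (ρ := ρW) hP'.pd.smV
  haveI hker : Module.Finite k ↥(LinearMap.ker (bdry3 D (ρ := ρW))) := by
    rw [hex.linearMap_ker_eq]
    infer_instance
  haveI hquot : Module.Finite k ((∀ v, smH2 (D.lev v) (D.rep ρW v)) ⧸
      LinearMap.ker (bdry3 D (ρ := ρW))) :=
    Module.Finite.equiv (bdry3 D (ρ := ρW)).quotKerEquivRange.symm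
  haveI hP2 : Module.Finite k (∀ v, smH2 (D.lev v) (D.rep ρW v)) :=
    Module.Finite.of_submodule_quotient (LinearMap.ker (bdry3 D (ρ := ρW)))
  exact Module.Finite.of_surjective
    (LinearMap.proj (R := k) (φ := fun v => smH2 (D.lev v) (D.rep ρW v)) v)
    (fun x => ⟨Pi.single (M := fun v => smH2 (D.lev v) (D.rep ρW v)) v x, by
      rw [LinearMap.proj_apply, Pi.single_eq_same]⟩)

end LocalH2

/-! ## the assembly -/

section Main

variable {𝒪 : Type} [CommRing 𝒪] [IsDomain 𝒪] [IsDiscreteValuationRing 𝒪]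
  [IsAdicComplete (maximalIdeal 𝒪) 𝒪] [Finite (ResidueField 𝒪)]
  (p : ℕ) [Fact p.Prime] [CharP (ResidueField 𝒪) p]
  (ρbar : ResidualGaloisRep (ResidueField 𝒪))

/-- unramifiedness outside `s56Primes T` when `T ⊇ Smin` -/
theorem s56m_unram_outside (Smin T : Finset ℕ) (hpSmin : p ∈ Smin) (hT : Smin ⊆ T)
    (hmin : ∀ q : ℕ, q.Prime → q ≠ p → (q ∈ Smin ↔ ¬ ρbar.IsUnramifiedAt q))
    (q : Nat.Primes) (hq : q ∉ s56Primes T) : ρbar.IsUnramifiedAt (q : ℕ) := by
  rw [mem_s56Primes] at hq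
  have hqS : (q : ℕ) ∉ Smin := fun h => hq (hT h)
  have hqp : (q : ℕ) ≠ p := fun h => hqS (h ▸ hpSmin)
  by_contra hcon
  exact hqS ((hmin q q.2 hqp).2 hcon)

theorem s56m_pPrime_mem (T : Finset ℕ) (hp : p ∈ T) : pPrime p ∈ s56Primes T := by
  rw [mem_s56Primes]
  exact hp

/-- the dual Selmer group for `S' = Smin ∪ Q` vanishes when `Q` is a killing family of TW primes -/
theorem s56m_selDual_eq_bot (hp2 : p ≠ 2) (S Smin : Finset ℕ) (hpSmin : p ∈ Smin)
    (hSmin : Smin ⊆ S)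
    (hmin : ∀ q : ℕ, q.Prime → q ≠ p → (q ∈ Smin ↔ ¬ ρbar.IsUnramifiedAt q))
    (n r : ℕ) (qv : Fin r → Nat.Primes)
    (hTWq : ∀ i, S56IsTW p ρbar S n ((qv i : Nat.Primes) : ℕ))
    (hkill : ∀ y : GQ → ((s56Ad0Rep p ρbar).dualTwist (cycloChar p)),
        y ∈ smZ1 (levelsS (s56Primes Smin)) ((s56Ad0Rep p ρbar).dualTwist (cycloChar p)).ρ →
        (∀ i, ∃ m : ((s56Ad0Rep p ρbar).dualTwist (cycloChar p)),
          ∀ γ : primeLocalGaloisGroup (qv i),
            y (primeLocalToGlobal (qv i) γ) =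
              ((s56Ad0Rep p ρbar).dualTwist (cycloChar p)).ρ (primeLocalToGlobal (qv i) γ) m - m) →
        y ∈ smB1 ((s56Ad0Rep p ρbar).dualTwist (cycloChar p)).ρ)
    (𝒵 : S56LocCond p ρbar) (h𝒵 : ∀ q : Nat.Primes, (q : ℕ) ∉ Smin → 𝒵 q = ⊤)
    (S' : Finset Nat.Primes) (hS₁ : s56Primes Smin ⊆ S') (hqS' : ∀ i, qv i ∈ S')
    (hcover : ∀ q ∈ S', q ∉ s56Primes Smin → ∃ i, qv i = q)
    (hpS' : pPrime p ∈ S') (hM : IsSmoothRep (levelsS S') (s56Ad0Rep p ρbar).ρ)
    (tr : smHc3 (locSysS S') (chiRep (cycloChar p)) →ₗ[ZMod p] ZMod p)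
    (htr : ∀ b, trLoc (locSysS S') tr b = asmInvQ p S' b) :
    s56SelDual (locSysS S') (perfPair_frozen S' hpS' (s56Ad0Rep p ρbar) hM).pd tr
      (s56LocSub p ρbar S' 𝒵) = ⊥ := by
  rw [eq_bot_iff]
  intro y hy
  rw [Submodule.mem_bot]
  rw [mem_s56SelDual] at hy
  obtain ⟨yt, rfl⟩ := Submodule.mkQ_surjective _ y
  -- facts about the TW primes
  have hqS : ∀ i, ((qv i : Nat.Primes) : ℕ) ∉ S := fun i => (hTWq i).1.2.1
  have hqSmin : ∀ i, ((qv i : Nat.Primes) : ℕ) ∉ Smin := fun i h => hqS i (hSmin h)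
  have hqur : ∀ i, ρbar.IsUnramifiedAt ((qv i : Nat.Primes) : ℕ) := fun i => by
    have hqp : ((qv i : Nat.Primes) : ℕ) ≠ p := fun h => hqSmin i (h ▸ hpSmin)
    by_contra hcon
    exact hqSmin i ((hmin _ (qv i).2 hqp).2 hcon)
  -- local triviality at the TW primes
  have hloc : ∀ i, ∃ m : ((s56Ad0Rep p ρbar).dualTwist (cycloChar p)),
      ∀ γ : primeLocalGaloisGroup (qv i),
        (yt : GQ → _) (primeLocalToGlobal (qv i) γ) =
          ((s56Ad0Rep p ρbar).dualTwist (cycloChar p)).ρ (primeLocalToGlobal (qv i) γ) m - m := by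
    intro i
    have htop : ∀ x, x ∈ s56LocSub p ρbar S' 𝒵 ⟨qv i, hqS' i⟩ := fun x => by
      rw [s56m_locSub_eq_top p ρbar S' 𝒵 _ (h𝒵 _ (hqSmin i))]
      exact Submodule.mem_top
    have hv := (s56_tw_local p ρbar hp2 S n S' hpS' hM tr htr ⟨qv i, hqS' i⟩ (hTWq i)
      (hqur i)).2
    have h0 := hv (locP1 (locSysS S') (ρ := ((s56Ad0Rep p ρbar).dualTwist (cycloChar p)).ρ)
      (smH1π (levelsS S') ((s56Ad0Rep p ρbar).dualTwist (cycloChar p)).ρ yt)) (fun l hl => by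
      refine hy l (fun w => ?_)
      by_cases hw : w = ⟨qv i, hqS' i⟩
      · subst hw
        exact htop _
      · have h0w : l w = 0 := hl w hw
        have hz : (0 : smH1 ((locSysS S').lev w) ((locSysS S').rep (s56Ad0 p ρbar) w)) ∈
            s56LocSub p ρbar S' 𝒵 w := Submodule.zero_mem _
        exact h0w ▸ hz)
    exact s56m_local_coboundary S' _ yt ⟨qv i, hqS' i⟩ h0
  -- inflation: `yt` is smooth for `Smin`
  have hpS₁ : pPrime p ∈ s56Primes Smin := s56m_pPrime_mem p Smin hpSmin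
  have hM₁ : IsSmoothRep (levelsS (s56Primes Smin)) (s56Ad0Rep p ρbar).ρ :=
    s56_ad_isSmooth p ρbar (s56Primes Smin)
      (s56m_unram_outside p ρbar Smin Smin hpSmin (Finset.Subset.refl _) hmin)
  have hMd₁ : IsSmoothRep (levelsS (s56Primes Smin))
      ((s56Ad0Rep p ρbar).dualTwist (cycloChar p)).ρ :=
    (perfPair_frozen (s56Primes Smin) hpS₁ (s56Ad0Rep p ρbar) hM₁).pd.smW
  have hyt₁ : (yt : GQ → _) ∈ smZ1 (levelsS (s56Primes Smin))
      ((s56Ad0Rep p ρbar).dualTwist (cycloChar p)).ρ := by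
    refine s56_isLC_of_locally_trivial (s56Primes Smin) S' hS₁ _ hMd₁ _ yt.2 ?_
    intro q hq hq₁
    obtain ⟨i, hqi⟩ := hcover q hq hq₁
    subst hqi
    exact hloc i
  have hB := hkill _ hyt₁ hloc
  exact (smH1π_eq_zero_iff _ _ yt).2 hB

/-- the count: `#Sel ≤ (#k)^r` -/
theorem s56m_card_sel_le (hp2 : p ≠ 2) (habs : ρbar.IsAbsolutelyIrreducible)
    (hdet : (GaloisRepAdic.ofResidualGaloisRep ρbar).DetIsCyclotomic p)
    (hTW : ∀ (K : Type) [Field K] [Algebra (ResidueField 𝒪) K]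
      (G : Subgroup (AlgebraicClosure ℚ ≃ₐ[ℚ] AlgebraicClosure ℚ)), G.index = 2 →
      ∀ V : Submodule K (ρbar.baseChange K).V,
        (∀ σ ∈ G, ∀ x ∈ V, (ρbar.baseChange K).ρ σ x ∈ V) → V = ⊥ ∨ V = ⊤)
    (S Smin : Finset ℕ) (hpSmin : p ∈ Smin) (hSmin : Smin ⊆ S)
    (hmin : ∀ q : ℕ, q.Prime → q ≠ p → (q ∈ Smin ↔ ¬ ρbar.IsUnramifiedAt q))
    (n r : ℕ) (qv : Fin r → Nat.Primes)
    (hTWq : ∀ i, S56IsTW p ρbar S n ((qv i : Nat.Primes) : ℕ))
    (hkill : ∀ y : GQ → ((s56Ad0Rep p ρbar).dualTwist (cycloChar p)),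
        y ∈ smZ1 (levelsS (s56Primes Smin)) ((s56Ad0Rep p ρbar).dualTwist (cycloChar p)).ρ →
        (∀ i, ∃ m : ((s56Ad0Rep p ρbar).dualTwist (cycloChar p)),
          ∀ γ : primeLocalGaloisGroup (qv i),
            y (primeLocalToGlobal (qv i) γ) =
              ((s56Ad0Rep p ρbar).dualTwist (cycloChar p)).ρ (primeLocalToGlobal (qv i) γ) m - m) →
        y ∈ smB1 ((s56Ad0Rep p ρbar).dualTwist (cycloChar p)).ρ)
    (𝒵 : S56LocCond p ρbar) (h𝒵 : ∀ q : Nat.Primes, (q : ℕ) ∉ Smin → 𝒵 q = ⊤)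
    (h𝒵p : ∀ (S' : Finset Nat.Primes) (v : ↥S'), ((v.1 : Nat.Primes) : ℕ) = p →
      Nat.card ↥(s56LocSub p ρbar S' 𝒵 v) ≤ Nat.card (ResidueField 𝒪) *
        Nat.card ↥(smH0 ((locSysS S').rep (s56Ad0 p ρbar) v)))
    (h𝒵m : ∀ (S' : Finset Nat.Primes) (v : ↥S'), ((v.1 : Nat.Primes) : ℕ) ∈ Smin →
      ((v.1 : Nat.Primes) : ℕ) ≠ p →
      Nat.card ↥(s56LocSub p ρbar S' 𝒵 v) ≤
        Nat.card ↥(smH0 ((locSysS S').rep (s56Ad0 p ρbar) v)))
    (S' : Finset Nat.Primes) (hS₁ : s56Primes Smin ⊆ S') (hqS' : ∀ i, qv i ∈ S')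
    (hcover : ∀ q ∈ S', q ∉ s56Primes Smin → ∃ i, qv i = q) :
    Finite ↥(s56SelQ p ρbar S' 𝒵) ∧
      Nat.card ↥(s56SelQ p ρbar S' 𝒵) ≤ Nat.card (ResidueField 𝒪) ^ r := by
  classical
  have hpS' : pPrime p ∈ S' := hS₁ (s56m_pPrime_mem p Smin hpSmin)
  have hurS' : ∀ q : Nat.Primes, q ∉ S' → ρbar.IsUnramifiedAt (q : ℕ) := fun q hq =>
    s56m_unram_outside p ρbar Smin Smin hpSmin (Finset.Subset.refl _) hmin q
      (fun h => hq (hS₁ h))
  have hM : IsSmoothRep (levelsS S') (s56Ad0Rep p ρbar).ρ := s56_ad_isSmooth p ρbar S' hurS'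
  obtain ⟨tr, htr, hbase⟩ := s56_core_base hp2 S' hpS'
  obtain ⟨hpk, hpk', hloc⟩ := hbase (s56Ad0Rep p ρbar) hM
  have hP : PerfPair (levelsS S') (cycloChar p) (s56Ad0 p ρbar)
      ((s56Ad0Rep p ρbar).dualTwist (cycloChar p)).ρ (evalPairing (s56Ad0Rep p ρbar) (cycloChar p)) :=
    perfPair_frozen S' hpS' (s56Ad0Rep p ρbar) hM
  have hP' : PerfPair (levelsS S') (cycloChar p)
      ((s56Ad0Rep p ρbar).dualTwist (cycloChar p)).ρ (s56Ad0 p ρbar)
      (evalPairing (s56Ad0Rep p ρbar) (cycloChar p)).flip :=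
    perfPair_frozen_flip S' hpS' (s56Ad0Rep p ρbar) hM
  have hMd : IsSmoothRep (levelsS S') ((s56Ad0Rep p ρbar).dualTwist (cycloChar p)).ρ := hP.pd.smW
  haveI hfinMd : FiniteDimensional (ZMod p) ((s56Ad0Rep p ρbar).dualTwist (cycloChar p)) := hP.finW
  obtain ⟨hf1V, -, -⟩ := ecg_global_euler_char hp2 S' hpS' (s56Ad0Rep p ρbar) hM
  obtain ⟨hf1W, hf2W, hEC⟩ := ecg_global_euler_char hp2 S' hpS'
    ((s56Ad0Rep p ρbar).dualTwist (cycloChar p)) hMd
  have hfP1 : ∀ v, FiniteDimensional (ZMod p)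
      (smH1 ((locSysS S').lev v) ((locSysS S').rep (s56Ad0 p ρbar) v)) := fun v =>
    s56_local_finite S' (s56Ad0Rep p ρbar) hM v
  have hfP2 : ∀ v, FiniteDimensional (ZMod p) (smH2 ((locSysS S').lev v)
      ((locSysS S').rep ((s56Ad0Rep p ρbar).dualTwist (cycloChar p)).ρ v)) := fun v =>
    s56m_local_h2_finite (locSysS S') (cycloChar p) hP' tr hpk' hf2W v
  have hWG := s56_wiles_greenberg (locSysS S') (cycloChar p) hP hP' tr hpk hpk' hloc hf1V hf1W
    hf2W hfP1 hfP2 (s56LocSub p ρbar S' 𝒵)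
  -- the dual Selmer group vanishes
  have hSD := s56m_selDual_eq_bot p ρbar hp2 S Smin hpSmin hSmin hmin n r qv hTWq hkill 𝒵 h𝒵 S'
    hS₁ hqS' hcover hpS' hM tr htr
  have hSD0 : Module.finrank (ZMod p) ↥(s56SelDual (locSysS S') hP.pd tr
      (s56LocSub p ρbar S' 𝒵)) = 0 := by
    have : s56SelDual (locSysS S') hP.pd tr (s56LocSub p ρbar S' 𝒵) = ⊥ := hSD
    rw [this, finrank_bot]
  -- global `H⁰`
  have hH0V : Module.finrank (ZMod p) ↥(smH0 (s56Ad0 p ρbar)) = 0 := by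
    rw [s56_ad_h0 p ρbar hp2 habs, finrank_bot]
  have hH0W : Module.finrank (ZMod p)
      ↥(smH0 ((s56Ad0Rep p ρbar).dualTwist (cycloChar p)).ρ) = 0 := by
    rw [s56_adDual_h0 p ρbar hp2 habs hdet hTW, finrank_bot]
  -- oddness
  obtain ⟨d, hd⟩ := s56m_exists_card_eq p (ResidueField 𝒪)
  have hodd := s56_adDual_conj p ρbar hp2 hdet
  rw [s56m_card_eq p ((s56Ad0Rep p ρbar).dualTwist (cycloChar p)),
    s56m_card_eq p ↥(LinearMap.ker
      (((s56Ad0Rep p ρbar).dualTwist (cycloChar p)).ρ complexConjugation - 1)), hd, ← pow_add] at hodd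
  have hodd' := s56m_pow_inj p hodd
  rw [hH0W, hodd'] at hEC
  rw [hSD0, hH0V] at hWG
  -- local bounds
  set c : ↥S' → ℕ := fun v => (if v.1 = pPrime p then 1 else 0) +
    ∑ i, (if qv i = v.1 then 1 else 0) with hcdef
  have hlocal : ∀ v : ↥S', Module.finrank (ZMod p) ↥(s56LocSub p ρbar S' 𝒵 v) ≤
      Module.finrank (ZMod p) ↥(smH0 ((locSysS S').rep (s56Ad0 p ρbar) v)) + d * c v := by
    intro v
    haveI := hfP1 v
    by_cases hvp : ((v.1 : Nat.Primes) : ℕ) = p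
    · have h1 := s56m_finrank_le_of_card_le p _ _ d _ hd (h𝒵p S' v hvp)
      have hc1 : 1 ≤ c v := by
        have : v.1 = pPrime p := Subtype.ext hvp
        simp only [hcdef, this, if_true]
        omega
      calc _ ≤ _ + d := h1
        _ ≤ _ + d * c v := by gcongr; exact Nat.le_mul_of_pos_right d hc1
    · by_cases hvm : ((v.1 : Nat.Primes) : ℕ) ∈ Smin
      · have h1 := h𝒵m S' v hvm hvp
        rw [s56m_card_eq p, s56m_card_eq p, s56m_pow_le_iff] at h1
        exact h1.trans (Nat.le_add_right _ _)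
      · have hv₁ : v.1 ∉ s56Primes Smin := by rwa [mem_s56Primes]
        obtain ⟨i, hi⟩ := hcover v.1 v.2 hv₁
        have hc1 : 1 ≤ c v := by
          have : (1 : ℕ) ≤ ∑ j, (if qv j = v.1 then 1 else 0) := by
            have h2 := Finset.single_le_sum (f := fun j => if qv j = v.1 then 1 else 0)
              (fun j _ => Nat.zero_le _) (Finset.mem_univ i)
            simpa [hi] using h2
          simp only [hcdef]
          omega
        have hvS : ((v.1 : Nat.Primes) : ℕ) ∉ S := hi ▸ (hTWq i).1.2.1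
        have hvur : ρbar.IsUnramifiedAt ((v.1 : Nat.Primes) : ℕ) := by
          by_contra hcon
          exact hvm ((hmin _ v.1.2 hvp).2 hcon)
        have hTWv : S56IsTW p ρbar S n ((v.1 : Nat.Primes) : ℕ) := hi ▸ hTWq i
        have h1 := (s56_tw_local p ρbar hp2 S n S' hpS' hM tr htr v hTWv hvur).1
        have h2 := s56m_finrank_le_of_card_le p _ _ d _ hd h1
        rw [s56m_locSub_eq_top p ρbar S' 𝒵 v (h𝒵 _ hvm), finrank_top]
        calc _ ≤ _ + d := h2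
          _ ≤ _ + d * c v := by gcongr; exact Nat.le_mul_of_pos_right d hc1
  have hsumc : ∑ v, c v ≤ 1 + r := by
    simp only [hcdef]
    rw [Finset.sum_add_distrib, Finset.sum_comm]
    have h1 : (∑ v : ↥S', if v.1 = pPrime p then 1 else 0) ≤ 1 :=
      s56m_sum_ite_le_one (fun v : ↥S' => v.1) Subtype.val_injective (pPrime p)
    have h2 : (∑ i : Fin r, ∑ v : ↥S', if qv i = v.1 then 1 else 0) ≤ r := by
      calc (∑ i : Fin r, ∑ v : ↥S', if qv i = v.1 then 1 else 0) ≤ ∑ i : Fin r, 1 := by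
            refine Finset.sum_le_sum (fun i _ => ?_)
            have := s56m_sum_ite_le_one (fun v : ↥S' => v.1) Subtype.val_injective (qv i)
            simpa only [eq_comm] using this
        _ = r := by simp
    omega
  have hsumL : ∑ v, Module.finrank (ZMod p) ↥(s56LocSub p ρbar S' 𝒵 v) ≤
      ∑ v, Module.finrank (ZMod p) ↥(smH0 ((locSysS S').rep (s56Ad0 p ρbar) v)) + (d + d * r) := by
    calc _ ≤ ∑ v, (Module.finrank (ZMod p) ↥(smH0 ((locSysS S').rep (s56Ad0 p ρbar) v)) +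
          d * c v) := Finset.sum_le_sum (fun v _ => hlocal v)
      _ = _ + d * ∑ v, c v := by rw [Finset.sum_add_distrib, Finset.mul_sum]
      _ ≤ _ + (d + d * r) := by
          gcongr
          calc d * ∑ v, c v ≤ d * (1 + r) := Nat.mul_le_mul_left d hsumc
            _ = d + d * r := by ring
  have ha : Module.finrank (ZMod p) ↥(s56SelQ p ρbar S' 𝒵) ≤ d * r := by
    unfold s56SelQ
    omega
  haveI : FiniteDimensional (ZMod p) (smH1 (levelsS S') (s56Ad0 p ρbar)) := hf1V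
  refine ⟨Module.finite_of_finite (ZMod p), ?_⟩
  rw [s56m_card_eq p, hd, ← pow_mul, s56m_pow_le_iff]
  exact ha

/-- **T6 (generic half).** From the dictionary for `𝒟` and the other leaves: the conclusion of one
half of the frozen statement. -/
theorem s56m_main_of_dict (hp2 : p ≠ 2) (habs : ρbar.IsAbsolutelyIrreducible)
    (hdet : (GaloisRepAdic.ofResidualGaloisRep ρbar).DetIsCyclotomic p)
    (hsplit : ∀ σ : AlgebraicClosure ℚ ≃ₐ[ℚ] AlgebraicClosure ℚ,
      ∃ α β : ResidueField 𝒪, LinearMap.charpoly (ρbar.ρ σ) = (X - C α) * (X - C β))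
    (hTW : ∀ (K : Type) [Field K] [Algebra (ResidueField 𝒪) K]
      (G : Subgroup (AlgebraicClosure ℚ ≃ₐ[ℚ] AlgebraicClosure ℚ)), G.index = 2 →
      ∀ V : Submodule K (ρbar.baseChange K).V,
        (∀ σ ∈ G, ∀ x ∈ V, (ρbar.baseChange K).ρ σ x ∈ V) → V = ⊥ ∨ V = ⊤)
    (S Smin : Finset ℕ) (hpSmin : p ∈ Smin) (hSmin : Smin ⊆ S) (hS : ∀ q ∈ S, q.Prime)
    (hmin : ∀ q : ℕ, q.Prime → q ≠ p → (q ∈ Smin ↔ ¬ ρbar.IsUnramifiedAt q))
    (𝒟 : Finset ℕ → ∀ ⦃A : Type⦄ [CommRing A] [IsLocalRing A] [Algebra 𝒪 A],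
      GaloisRepAdic A → Prop)
    (hdict : S56Dict p ρbar Smin 𝒟) :
    ∃ r : ℕ, ∀ n : ℕ, ∃ qv : Fin r → ℕ, Function.Injective qv ∧
      (∀ i, (qv i).Prime ∧ qv i ∉ S ∧ p ^ (n + 1) ∣ qv i - 1) ∧
      (∀ i, ∀ P : ValuationSubring (AlgebraicClosure ℚ), P.LiesOverPrime (qv i) →
        ∀ φ : AlgebraicClosure ℚ ≃ₐ[ℚ] AlgebraicClosure ℚ, P.IsFrobeniusAt φ (qv i) →
          ∃ α β : ResidueField 𝒪, α ≠ β ∧
            LinearMap.charpoly (ρbar.ρ φ) = (X - C α) * (X - C β)) ∧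
      ∀ DQ : GaloisRep.DeformationRingData 𝒪 ρbar (𝒟 (Finset.univ.image qv)),
        ∃ γ : MvPowerSeries (Fin r) 𝒪 →ₐ[𝒪] DQ.R, Function.Surjective γ := by
  obtain ⟨r, hr⟩ := s56_exists_tw_primes p ρbar hp2 habs hdet hsplit hTW S Smin hpSmin hSmin hS
    hmin
  obtain ⟨𝒵, h𝒵, h𝒵p, h𝒵m, hinj⟩ := hdict
  refine ⟨r, fun n => ?_⟩
  obtain ⟨qv, hqinj, hTWq, hkill⟩ := hr n
  refine ⟨fun i => ((qv i : Nat.Primes) : ℕ), fun i j hij => hqinj (Subtype.ext hij),
    fun i => (hTWq i).1, fun i => (hTWq i).2, fun DQ => ?_⟩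
  have hQ : ∀ q ∈ Finset.univ.image (fun i => ((qv i : Nat.Primes) : ℕ)), q.Prime := by
    intro q hq
    obtain ⟨i, -, rfl⟩ := Finset.mem_image.1 hq
    exact (qv i).2
  obtain ⟨f, hf⟩ := hinj _ hQ DQ
  have hS₁ : s56Primes Smin ⊆
      s56Primes (Smin ∪ Finset.univ.image (fun i => ((qv i : Nat.Primes) : ℕ))) := fun q hq => by
    rw [mem_s56Primes] at hq
    rw [mem_s56Primes, Finset.mem_union]
    exact Or.inl hq
  have hqS' : ∀ i, qv i ∈
      s56Primes (Smin ∪ Finset.univ.image (fun i => ((qv i : Nat.Primes) : ℕ))) := fun i => by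
    rw [mem_s56Primes, Finset.mem_union]
    exact Or.inr (Finset.mem_image.2 ⟨i, Finset.mem_univ _, rfl⟩)
  have hcover : ∀ q ∈ s56Primes (Smin ∪ Finset.univ.image (fun i => ((qv i : Nat.Primes) : ℕ))),
      q ∉ s56Primes Smin → ∃ i, qv i = q := by
    intro q hq hq₁
    rw [mem_s56Primes, Finset.mem_union] at hq
    rw [mem_s56Primes] at hq₁
    rcases hq with hq | hq
    · exact absurd hq hq₁
    · obtain ⟨i, -, hi⟩ := Finset.mem_image.1 hq
      exact ⟨i, Subtype.ext hi⟩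
  obtain ⟨hfin, hcard⟩ := s56m_card_sel_le p ρbar hp2 habs hdet hTW S Smin hpSmin hSmin hmin n r
    qv hTWq hkill 𝒵 h𝒵 h𝒵p h𝒵m _ hS₁ hqS' hcover
  exact s56_surjective_of_card_le DQ.residue_surjective r ⟨_, hfin, f, hf, hcard⟩

end Main

end Fermat.Agent.S56
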